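import Fermat.Agent.PIC.Ops.BCBasic
import Mathlib

/-!
# The dual of a datum

`dual` is the datum of linear forms on the charts; it commutes with base change and respects
isomorphisms.
-/

set_option autoImplicit false

universe u

namespace Fermat.PIC

noncomputable section

section Generic

variable {R S P Q : Type*} [CommRing R] [CommRing S] [AddCommGroup P] [AddCommGroup Q]
  [Module R P] [Module S Q] {ρ : R →+* S} {x : R} {u : Sˣ} (hρ : IsChartMap ρ x u)

/-- A restriction map has spanning image. -/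
lemma span_range_eq_top_of_surj (r : P →+ Q)
    (hsurj : ∀ z, ∃ (n : ℕ) (p : P), r p = ((u : S) ^ n) • z) :
    Submodule.span S (Set.range r) = ⊤ := by
  rw [eq_top_iff]
  rintro z -
  obtain ⟨n, p, hp⟩ := hsurj z
  rw [show z = (↑(u ^ n)⁻¹ : S) • r p by
    rw [hp, ← mul_smul, ← Units.val_pow_eq_pow_val, Units.inv_mul, one_smul]]
  exact Submodule.smul_mem _ _ (Submodule.subset_span ⟨p, rfl⟩)

/-- The restriction of a linear form to the overlap. -/
theorem exists_dual_extend [Module.Invertible R P] [Module.Invertible S Q] (r : P →+ Q)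
    (hr : ∀ (a : R) p, r (a • p) = ρ a • r p)
    (hsurj : ∀ z, ∃ (n : ℕ) (p : P), r p = ((u : S) ^ n) • z) (g : Module.Dual R P) :
    ∃ g' : Module.Dual S Q, ∀ p, g' (r p) = ρ (g p) :=
  exists_semilinear_lift ρ r hr (span_range_eq_top_of_surj r hsurj)
    (ρ.toAddMonoidHom.comp g.toAddMonoidHom) fun a p ↦ by
      simp [map_smul, smul_eq_mul]

include hρ in
/-- A linear form on the overlap comes from the chart after multiplying by the coordinate. -/
theorem exists_pow_smul_dual [Module.Finite R P] (r : P →+ Q)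
    (hr : ∀ (a : R) p, r (a • p) = ρ a • r p) (h : Module.Dual S Q) :
    ∃ (n : ℕ) (g : Module.Dual R P), ∀ p, ρ (g p) = (u : S) ^ n * h (r p) := by
  obtain ⟨s, hs⟩ := Module.Finite.fg_top (R := R) (M := P)
  choose n c hc using fun p : P ↦ hρ.surj (h (r p))
  let N := s.sup n
  have hall : ∀ p, ∃ a, ρ a = (u : S) ^ N * h (r p) := by
    intro p
    have hp : p ∈ Submodule.span R (s : Set P) := hs ▸ Submodule.mem_top
    induction hp using Submodule.span_induction with
    | mem q hq =>
      refine ⟨x ^ (N - n q) * c q, ?_⟩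
      rw [map_mul, hρ.map_pow_coord, hc, ← mul_assoc, ← pow_add,
        Nat.sub_add_cancel (Finset.le_sup (Finset.mem_coe.mp hq))]
    | zero => exact ⟨0, by simp⟩
    | add p q _ _ hp hq =>
      obtain ⟨a, ha⟩ := hp
      obtain ⟨b, hb⟩ := hq
      exact ⟨a + b, by rw [map_add, map_add, map_add, ha, hb, mul_add]⟩
    | smul t q _ hq =>
      obtain ⟨a, ha⟩ := hq
      exact ⟨t * a, by rw [map_mul, ha, hr, map_smul, smul_eq_mul]; ring⟩
  choose a ha using hall
  refine ⟨N, ⟨⟨a, fun p q ↦ hρ.inj ?_⟩, fun t q ↦ hρ.inj ?_⟩, ha⟩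
  · rw [map_add ρ, ha, ha, ha, map_add, map_add, mul_add]
  · rw [RingHom.id_apply, smul_eq_mul, map_mul, ha, ha, hr, map_smul, smul_eq_mul]
    ring

/-- A dual basis. -/
theorem exists_dual_basis (R P : Type*) [CommRing R] [AddCommGroup P] [Module R P]
    [Module.Finite R P] [Module.Projective R P] :
    ∃ (n : ℕ) (b : Fin n → P) (φ : Fin n → Module.Dual R P), ∀ p, ∑ i, φ i p • b i = p := by
  classical
  obtain ⟨n, π, hπ⟩ := Module.Finite.exists_fin' R P
  obtain ⟨s, hs⟩ := Module.projective_lifting_property π LinearMap.id hπ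
  refine ⟨n, fun i ↦ π (Pi.single i 1), fun i ↦ (LinearMap.proj i).comp s, fun p ↦ ?_⟩
  have h1 : π (∑ i, s p i • Pi.single i (1 : R)) = π (s p) := by
    congr 1
    ext j
    simp [Finset.sum_apply, Pi.single_apply]
  simpa [map_sum] using h1.trans (LinearMap.congr_fun hs p)

/-- The induced map on linear forms of a semilinear map with spanning image, with its spanning
property. -/
theorem exists_dual_map {R' P' : Type*} [CommRing R'] [AddCommGroup P'] [Module R' P']
    [Module.Invertible R P] [Module.Invertible R' P'] (χ : R →+* R') (f : P →+ P')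
    (hf : ∀ (a : R) p, f (a • p) = χ a • f p) (hspan : Submodule.span R' (Set.range f) = ⊤) :
    ∃ F : Module.Dual R P →+ Module.Dual R' P', (∀ g p, F g (f p) = χ (g p)) ∧
      (∀ (a : R) g, F (a • g) = χ a • F g) ∧ Submodule.span R' (Set.range F) = ⊤ := by
  choose F hF using fun g : Module.Dual R P ↦ exists_semilinear_lift χ f hf hspan
    (χ.toAddMonoidHom.comp g.toAddMonoidHom) (fun a p ↦ by simp [map_smul, smul_eq_mul])
  have hF' : ∀ g p, F g (f p) = χ (g p) := hF
  refine ⟨AddMonoidHom.mk' F fun g g' ↦ LinearMap.ext_on_range hspan fun p ↦ by simp [hF'],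
    hF', fun a g ↦ LinearMap.ext_on_range hspan fun p ↦ by simp [hF'], eq_top_iff.mpr fun h _ ↦ ?_⟩
  obtain ⟨n, b, φ, hb⟩ := exists_dual_basis R P
  have : h = ∑ i, h (f (b i)) • F (φ i) := LinearMap.ext_on_range hspan fun p ↦ by
    conv_lhs => rw [← hb p]
    simp [map_sum, hf, hF', mul_comm]
  rw [this]
  exact Submodule.sum_mem _ fun i _ ↦ Submodule.smul_mem _ _ (Submodule.subset_span ⟨φ i, rfl⟩)

end Generic

variable {k : Type u} [Field k] {G : CurveCharts k} {B B' : Type u} [CommRing B] [CommRing B']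
  [Algebra k B] [Algebra k B']

namespace Datum

/-- The restriction of linear forms from `U0`. -/
def dualRes0 (D : Datum G B) : Module.Dual (G.R0 B) D.P0 →ₗ[B] Module.Dual (G.R01 B) D.P01 where
  toFun g := (exists_dual_extend (u := G.xUnit B) D.r0.toAddMonoidHom D.r0_smul D.r0_surj g).choose
  map_add' g g' := LinearMap.ext_on_range
    (span_range_eq_top_of_surj D.r0.toAddMonoidHom D.r0_surj) fun p ↦ by
      have := fun g ↦ (exists_dual_extend (u := G.xUnit B) D.r0.toAddMonoidHom D.r0_smul D.r0_surj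
        g).choose_spec p
      rw [this, LinearMap.add_apply, LinearMap.add_apply, this, this, map_add]
  map_smul' b g := LinearMap.ext_on_range
    (span_range_eq_top_of_surj D.r0.toAddMonoidHom D.r0_surj) fun p ↦ by
      have := fun g ↦ (exists_dual_extend (u := G.xUnit B) D.r0.toAddMonoidHom D.r0_smul D.r0_surj
        g).choose_spec p
      rw [this, RingHom.id_apply, LinearMap.smul_apply, LinearMap.smul_apply, this]
      exact map_smul (G.ρ0 B).toLinearMap b (g p)

/-- A restricted form evaluates on restrictions as the form on `U0`. -/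
lemma dualRes0_apply (D : Datum G B) (g : Module.Dual (G.R0 B) D.P0) (p : D.P0) :
    D.dualRes0 g (D.r0 p) = G.ρ0 B (g p) :=
  (exists_dual_extend (u := G.xUnit B) D.r0.toAddMonoidHom D.r0_smul D.r0_surj g).choose_spec p

/-- The restriction of linear forms from `U1`. -/
def dualRes1 (D : Datum G B) : Module.Dual (G.R1 B) D.P1 →ₗ[B] Module.Dual (G.R01 B) D.P01 where
  toFun g := (exists_dual_extend (u := (G.xUnit B)⁻¹) D.r1.toAddMonoidHom D.r1_smul
    D.r1_surj g).choose
  map_add' g g' := LinearMap.ext_on_range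
    (span_range_eq_top_of_surj D.r1.toAddMonoidHom D.r1_surj) fun p ↦ by
      have := fun g ↦ (exists_dual_extend (u := (G.xUnit B)⁻¹) D.r1.toAddMonoidHom D.r1_smul
        D.r1_surj g).choose_spec p
      rw [this, LinearMap.add_apply, LinearMap.add_apply, this, this, map_add]
  map_smul' b g := LinearMap.ext_on_range
    (span_range_eq_top_of_surj D.r1.toAddMonoidHom D.r1_surj) fun p ↦ by
      have := fun g ↦ (exists_dual_extend (u := (G.xUnit B)⁻¹) D.r1.toAddMonoidHom D.r1_smul
        D.r1_surj g).choose_spec p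
      rw [this, RingHom.id_apply, LinearMap.smul_apply, LinearMap.smul_apply, this]
      exact map_smul (G.ρ1 B).toLinearMap b (g p)

/-- A restricted form evaluates on restrictions as the form on `U1`. -/
lemma dualRes1_apply (D : Datum G B) (g : Module.Dual (G.R1 B) D.P1) (p : D.P1) :
    D.dualRes1 g (D.r1 p) = G.ρ1 B (g p) :=
  (exists_dual_extend (u := (G.xUnit B)⁻¹) D.r1.toAddMonoidHom D.r1_smul D.r1_surj g).choose_spec p

/-- The dual line bundle. -/
def dual (D : Datum G B) : Datum G B where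
  P0 := Module.Dual (G.R0 B) D.P0
  P1 := Module.Dual (G.R1 B) D.P1
  P01 := Module.Dual (G.R01 B) D.P01
  r0 := D.dualRes0
  r1 := D.dualRes1
  r0_smul a g := LinearMap.ext_on_range (span_range_eq_top_of_surj D.r0.toAddMonoidHom D.r0_surj)
    fun p ↦ by
      change D.dualRes0 (a • g) (D.r0 p) = G.ρ0 B a • D.dualRes0 g (D.r0 p)
      rw [dualRes0_apply, dualRes0_apply, LinearMap.smul_apply, smul_eq_mul, map_mul, smul_eq_mul]
  r1_smul a g := LinearMap.ext_on_range (span_range_eq_top_of_surj D.r1.toAddMonoidHom D.r1_surj)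
    fun p ↦ by
      change D.dualRes1 (a • g) (D.r1 p) = G.ρ1 B a • D.dualRes1 g (D.r1 p)
      rw [dualRes1_apply, dualRes1_apply, LinearMap.smul_apply, smul_eq_mul, map_mul, smul_eq_mul]
  r0_inj g g' h := LinearMap.ext fun p ↦ (Datum.trivial G B).r0_inj (by
    change G.ρ0 B (g p) = G.ρ0 B (g' p)
    rw [← dualRes0_apply, ← dualRes0_apply, h])
  r1_inj g g' h := LinearMap.ext fun p ↦ (Datum.trivial G B).r1_inj (by
    change G.ρ1 B (g p) = G.ρ1 B (g' p)
    rw [← dualRes1_apply, ← dualRes1_apply, h])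
  r0_surj h := by
    obtain ⟨n, g, hg⟩ := exists_pow_smul_dual (G.isChartMap0 B) D.r0.toAddMonoidHom D.r0_smul h
    refine ⟨n, g, LinearMap.ext_on_range (span_range_eq_top_of_surj D.r0.toAddMonoidHom D.r0_surj)
      fun p ↦ ?_⟩
    exact (D.dualRes0_apply g p).trans (hg p)
  r1_surj h := by
    obtain ⟨n, g, hg⟩ := exists_pow_smul_dual (G.isChartMap1 B) D.r1.toAddMonoidHom D.r1_smul h
    refine ⟨n, g, LinearMap.ext_on_range (span_range_eq_top_of_surj D.r1.toAddMonoidHom D.r1_surj)
      fun p ↦ ?_⟩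
    exact (D.dualRes1_apply g p).trans (hg p)

/-- Base change commutes with duals. -/
theorem BC.nonempty_dual {φ : B →ₐ[k] B'} {D : Datum G B} {D' : Datum G B'} (c : BC φ D D') :
    ∃ c' : BC φ D.dual D'.dual,
      (∀ (g : Module.Dual (G.R0 B) D.P0) p,
        (show Module.Dual (G.R0 B') D'.P0 from c'.f0 g) (c.f0 p) = G.bc0 φ (g p)) ∧
      (∀ (g : Module.Dual (G.R1 B) D.P1) p,
        (show Module.Dual (G.R1 B') D'.P1 from c'.f1 g) (c.f1 p) = G.bc1 φ (g p)) ∧
      ∀ (g : Module.Dual (G.R01 B) D.P01) p,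
        (show Module.Dual (G.R01 B') D'.P01 from c'.f01 g) (c.f01 p) = G.bc01 φ (g p) := by
  obtain ⟨F0, h0, s0, t0⟩ := exists_dual_map (G.bc0 φ).toRingHom c.f0 c.smul0 c.span0
  obtain ⟨F1, h1, s1, t1⟩ := exists_dual_map (G.bc1 φ).toRingHom c.f1 c.smul1 c.span1
  obtain ⟨F01, h01, s01, t01⟩ := exists_dual_map (G.bc01 φ).toRingHom c.f01 c.smul01 c.span01
  refine ⟨{
    f0 := F0
    f1 := F1
    f01 := F01
    smul0 := s0
    smul1 := s1
    smul01 := s01
    comm0 := fun g ↦ LinearMap.ext_on_range (v := c.f01.comp D.r0.toAddMonoidHom)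
      (span_range_comp_eq_top (G.bc01 φ).toRingHom _ _ c.smul01
        (span_range_eq_top_of_surj _ D.r0_surj) c.span01) fun p ↦ by
        change D'.dualRes0 (F0 g) (c.f01 (D.r0 p)) = F01 (D.dualRes0 g) (c.f01 (D.r0 p))
        rw [h01, dualRes0_apply, ← c.comm0, dualRes0_apply, h0]
        exact G.ρ0_bc0 φ _
    comm1 := fun g ↦ LinearMap.ext_on_range (v := c.f01.comp D.r1.toAddMonoidHom)
      (span_range_comp_eq_top (G.bc01 φ).toRingHom _ _ c.smul01
        (span_range_eq_top_of_surj _ D.r1_surj) c.span01) fun p ↦ by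
        change D'.dualRes1 (F1 g) (c.f01 (D.r1 p)) = F01 (D.dualRes1 g) (c.f01 (D.r1 p))
        rw [h01, dualRes1_apply, ← c.comm1, dualRes1_apply, h1]
        exact G.ρ1_bc1 φ _
    span0 := t0
    span1 := t1
    span01 := t01 }, h0, h1, h01⟩

/-- Base change commutes with duals. -/
def BC.dual {φ : B →ₐ[k] B'} {D : Datum G B} {D' : Datum G B'} (c : BC φ D D') :
    BC φ D.dual D'.dual :=
  c.nonempty_dual.choose

/-- The base change of the dual is compatible with evaluation on `U0`. -/
lemma BC.dual_apply0 {φ : B →ₐ[k] B'} {D : Datum G B} {D' : Datum G B'} (c : BC φ D D')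
    (g : Module.Dual (G.R0 B) D.P0) (p : D.P0) :
    (show Module.Dual (G.R0 B') D'.P0 from c.dual.f0 g) (c.f0 p) = G.bc0 φ (g p) :=
  c.nonempty_dual.choose_spec.1 g p

/-- The base change of the dual is compatible with evaluation on `U1`. -/
lemma BC.dual_apply1 {φ : B →ₐ[k] B'} {D : Datum G B} {D' : Datum G B'} (c : BC φ D D')
    (g : Module.Dual (G.R1 B) D.P1) (p : D.P1) :
    (show Module.Dual (G.R1 B') D'.P1 from c.dual.f1 g) (c.f1 p) = G.bc1 φ (g p) :=
  c.nonempty_dual.choose_spec.2.1 g p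

/-- Duals respect isomorphisms. -/
def Equiv.dual {D D' : Datum G B} (e : Equiv D D') : Equiv D.dual D'.dual where
  e0 := e.e0.symm.dualMap
  e1 := e.e1.symm.dualMap
  e01 := e.e01.symm.dualMap
  comm0 g := LinearMap.ext_on_range (span_range_eq_top_of_surj D'.r0.toAddMonoidHom D'.r0_surj)
    fun p ↦ by
      change D'.dualRes0 (e.e0.symm.dualMap g) (D'.r0 p) = D.dualRes0 g (e.e01.symm (D'.r0 p))
      obtain ⟨q, rfl⟩ := e.e0.surjective p
      rw [dualRes0_apply, LinearEquiv.dualMap_apply, e.e0.symm_apply_apply, e.comm0,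
        e.e01.symm_apply_apply, dualRes0_apply]
  comm1 g := LinearMap.ext_on_range (span_range_eq_top_of_surj D'.r1.toAddMonoidHom D'.r1_surj)
    fun p ↦ by
      change D'.dualRes1 (e.e1.symm.dualMap g) (D'.r1 p) = D.dualRes1 g (e.e01.symm (D'.r1 p))
      obtain ⟨q, rfl⟩ := e.e1.surjective p
      rw [dualRes1_apply, LinearEquiv.dualMap_apply, e.e1.symm_apply_apply, e.comm1,
        e.e01.symm_apply_apply, dualRes1_apply]

end Datum

end

end Fermat.PIC
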