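import Fermat.Agent.PIC.Ops.BCSub
import Fermat.Agent.PIC.Ops.Dual
import Mathlib

/-!
# The line bundle of an effective divisor, and its canonical section

`pos` is this bundle and `posSection` its section; a section cutting out the divisor identifies a
datum with it (`exists_equiv_of_section`).
-/

set_option autoImplicit false

universe u

namespace Fermat.PIC

noncomputable section

variable {k : Type u} [Field k] {G : CurveCharts k} {B B' : Type u} [CommRing B] [CommRing B']
  [Algebra k B] [Algebra k B']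

/-- A surjection of an invertible module onto an ideal, as an isomorphism. -/
lemma exists_equiv_smulTop {R M : Type*} [CommRing R] [AddCommGroup M] [Module R M]
    [Module.Invertible R M] (I : Ideal R) [Module.Invertible R I] (f : M →ₗ[R] R)
    (hf : LinearMap.range f = I) :
    ∃ e : M ≃ₗ[R] smulTop I R, ∀ m, (e m : R) = f m := by
  have : Module.Invertible R (smulTop I R) := invertible_smul_top I
  have hI : (smulTop I R : Submodule R R) = I := by rw [smulTop, Ideal.smul_eq_mul, Ideal.mul_top]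
  let g : M →ₗ[R] smulTop I R := f.codRestrict _ fun m ↦ by rw [hI, ← hf]; exact ⟨m, rfl⟩
  have hg : Function.Surjective g := fun x ↦ by
    have hx : (x : R) ∈ LinearMap.range f := hf.ge (hI.le x.2)
    obtain ⟨m, hm⟩ := hx
    exact ⟨m, Subtype.ext hm⟩
  exact ⟨LinearEquiv.ofBijective g (Module.Invertible.bijective_of_surjective hg), fun m ↦ rfl⟩

namespace Datum

/-- A datum is its double dual. -/
def dualDual (D : Datum G B) : Equiv D D.dual.dual where
  e0 := Module.evalEquiv (G.R0 B) D.P0
  e1 := Module.evalEquiv (G.R1 B) D.P1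
  e01 := Module.evalEquiv (G.R01 B) D.P01
  comm0 p := LinearMap.ext_on_range
    (span_range_eq_top_of_surj D.dual.r0.toAddMonoidHom D.dual.r0_surj) fun g ↦ by
      change D.dual.dualRes0 (Module.evalEquiv (G.R0 B) D.P0 p) (D.dual.r0 g) =
        Module.evalEquiv (G.R01 B) D.P01 (D.r0 p) (D.dualRes0 g)
      rw [dualRes0_apply]
      exact (D.dualRes0_apply g p).symm
  comm1 p := LinearMap.ext_on_range
    (span_range_eq_top_of_surj D.dual.r1.toAddMonoidHom D.dual.r1_surj) fun g ↦ by
      change D.dual.dualRes1 (Module.evalEquiv (G.R1 B) D.P1 p) (D.dual.r1 g) =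
        Module.evalEquiv (G.R01 B) D.P01 (D.r1 p) (D.dualRes1 g)
      rw [dualRes1_apply]
      exact (D.dualRes1_apply g p).symm

/-- The image of a ring map spans the target over itself. -/
lemma span_range_ringHom_eq_top {R S : Type*} [CommRing R] [CommRing S] (f : R →+* S) :
    Submodule.span S (Set.range f) = ⊤ :=
  Ideal.eq_top_iff_one (Submodule.span S (Set.range f) : Ideal S) |>.mpr
    (Submodule.subset_span ⟨1, map_one f⟩)

/-- The line bundle of an effective divisor. -/
def pos (E : Div G B) : Datum G B := ((Datum.trivial G B).sub E).dual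

/-- The canonical section of the line bundle of an effective divisor. -/
def posSection (E : Div G B) : (pos E).H0 :=
  ⟨((smulTop E.I0 (G.R0 B)).subtype, (smulTop E.I1 (G.R1 B)).subtype), by
    rw [LinearMap.mem_ker, d_apply, sub_eq_zero]
    have h0 : ((Datum.trivial G B).sub E).dualRes0 (smulTop E.I0 (G.R0 B)).subtype =
        (smulTop E.I01 (G.R01 B)).subtype :=
      LinearMap.ext_on_range
        (span_range_eq_top_of_surj ((Datum.trivial G B).sub E).r0.toAddMonoidHom
          ((Datum.trivial G B).sub E).r0_surj) fun p ↦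
        dualRes0_apply _ _ p
    have h1 : ((Datum.trivial G B).sub E).dualRes1 (smulTop E.I1 (G.R1 B)).subtype =
        (smulTop E.I01 (G.R01 B)).subtype :=
      LinearMap.ext_on_range
        (span_range_eq_top_of_surj ((Datum.trivial G B).sub E).r1.toAddMonoidHom
          ((Datum.trivial G B).sub E).r1_surj) fun p ↦
        dualRes1_apply _ _ p
    exact h0.trans h1.symm⟩

/-- The values of linear forms on a section, on `U0`. -/
def values0 (D : Datum G B) (p : D.P0) : Ideal (G.R0 B) :=
  LinearMap.range (LinearMap.applyₗ (R := G.R0 B) (M₂ := G.R0 B) p)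

/-- The values of linear forms on a section, on `U1`. -/
def values1 (D : Datum G B) (p : D.P1) : Ideal (G.R1 B) :=
  LinearMap.range (LinearMap.applyₗ (R := G.R1 B) (M₂ := G.R1 B) p)

/-- The values on `U0` are those of linear forms. -/
lemma mem_values0 {D : Datum G B} {p : D.P0} {a : G.R0 B} :
    a ∈ D.values0 p ↔ ∃ φ : Module.Dual (G.R0 B) D.P0, φ p = a := Iff.rfl

/-- The values on `U1` are those of linear forms. -/
lemma mem_values1 {D : Datum G B} {p : D.P1} {a : G.R1 B} :
    a ∈ D.values1 p ↔ ∃ φ : Module.Dual (G.R1 B) D.P1, φ p = a := Iff.rfl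

/-- The canonical section cuts out the divisor on `U0`. -/
lemma values0_posSection (E : Div G B) : (pos E).values0 (posSection E).1.1 = E.I0 := by
  have hI : (smulTop E.I0 (G.R0 B) : Submodule (G.R0 B) (G.R0 B)) = E.I0 := by
    rw [smulTop, Ideal.smul_eq_mul, Ideal.mul_top]
  ext a
  rw [mem_values0]
  constructor
  · rintro ⟨φ, rfl⟩
    obtain ⟨p, rfl⟩ := ((Datum.trivial G B).sub E).dualDual.e0.surjective φ
    exact hI.le p.2
  · intro ha
    exact ⟨((Datum.trivial G B).sub E).dualDual.e0 ⟨a, hI.ge ha⟩, rfl⟩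

/-- The canonical section cuts out the divisor on `U1`. -/
lemma values1_posSection (E : Div G B) : (pos E).values1 (posSection E).1.2 = E.I1 := by
  have hI : (smulTop E.I1 (G.R1 B) : Submodule (G.R1 B) (G.R1 B)) = E.I1 := by
    rw [smulTop, Ideal.smul_eq_mul, Ideal.mul_top]
  ext a
  rw [mem_values1]
  constructor
  · rintro ⟨φ, rfl⟩
    obtain ⟨p, rfl⟩ := ((Datum.trivial G B).sub E).dualDual.e1.surjective φ
    exact hI.le p.2
  · intro ha
    exact ⟨((Datum.trivial G B).sub E).dualDual.e1 ⟨a, hI.ge ha⟩, rfl⟩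

/-- A section whose values cut out a divisor identifies the datum with the line bundle of the
divisor. -/
theorem exists_equiv_of_section (D : Datum G B) (E : Div G B) (s : D.H0)
    (h0 : D.values0 s.1.1 = E.I0) (h1 : D.values1 s.1.2 = E.I1) :
    ∃ e : Equiv D (pos E), e.e0 s.1.1 = (posSection E).1.1 ∧ e.e1 s.1.2 = (posSection E).1.2 := by
  have hz : D.r0 s.1.1 = D.r1 s.1.2 := sub_eq_zero.mp ((D.d_apply s.1).symm.trans s.2)
  have h01 : LinearMap.range (LinearMap.applyₗ (R := G.R01 B) (M₂ := G.R01 B) (D.r0 s.1.1)) =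
      E.I01 := by
    refine le_antisymm ?_ ?_
    · rintro _ ⟨ψ, rfl⟩
      obtain ⟨n, φ, hφ⟩ := D.dual.r0_surj ψ
      have hv : ((G.xUnit B : G.R01 B) ^ n) * ψ (D.r0 s.1.1) ∈ E.I01 := by
        have := LinearMap.congr_fun (show D.dualRes0 φ = _ from hφ) (D.r0 s.1.1)
        rw [dualRes0_apply] at this
        change _ = (G.xUnit B : G.R01 B) ^ n * ψ (D.r0 s.1.1) at this
        rw [← this]
        exact Ideal.mem_map_of_mem _ (h0.le ⟨φ, rfl⟩)
      exact (Ideal.unit_mul_mem_iff_mem _ ((G.xUnit B).isUnit.pow n)).mp hv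
    · refine Ideal.map_le_iff_le_comap.mpr fun a ha ↦ ?_
      rw [← h0] at ha
      obtain ⟨φ, rfl⟩ := ha
      exact ⟨D.dualRes0 φ, D.dualRes0_apply φ _⟩
  -- evaluation at `s` identifies the dual of `D` with the ideal of `E`
  obtain ⟨e0, he0⟩ := exists_equiv_smulTop E.I0
    (LinearMap.applyₗ (R := G.R0 B) (M₂ := G.R0 B) s.1.1) h0
  obtain ⟨e1, he1⟩ := exists_equiv_smulTop E.I1
    (LinearMap.applyₗ (R := G.R1 B) (M₂ := G.R1 B) s.1.2) h1
  obtain ⟨e01, he01⟩ := exists_equiv_smulTop E.I01
    (LinearMap.applyₗ (R := G.R01 B) (M₂ := G.R01 B) (D.r0 s.1.1)) h01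
  let α : Equiv D.dual ((Datum.trivial G B).sub E) :=
    { e0 := e0
      e1 := e1
      e01 := e01
      comm0 := fun φ ↦ Subtype.ext (by
        refine (sub_r0_val _ _ _).trans ?_
        change G.ρ0 B (e0 φ : G.R0 B) = (e01 (D.dualRes0 φ) : G.R01 B)
        rw [he0, he01]
        exact (D.dualRes0_apply φ _).symm)
      comm1 := fun (φ : Module.Dual (G.R1 B) D.P1) ↦ Subtype.ext (by
        refine (sub_r1_val _ _ _).trans ?_
        change G.ρ1 B (e1 φ : G.R1 B) = (e01 (D.dualRes1 φ) : G.R01 B)
        rw [he1, he01]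
        change G.ρ1 B (φ s.1.2) = D.dualRes1 φ (D.r0 s.1.1)
        rw [hz]
        exact (D.dualRes1_apply φ _).symm) }
  -- dualise again
  refine ⟨D.dualDual.trans α.dual, ?_, ?_⟩
  · refine LinearMap.ext fun a ↦ ?_
    obtain ⟨φ, rfl⟩ := e0.surjective a
    change Module.evalEquiv (G.R0 B) D.P0 s.1.1 (e0.symm (e0 φ)) = (e0 φ : G.R0 B)
    rw [e0.symm_apply_apply, he0]
    rfl
  · refine LinearMap.ext fun a ↦ ?_
    obtain ⟨φ, rfl⟩ := e1.surjective a
    change Module.evalEquiv (G.R1 B) D.P1 s.1.2 (e1.symm (e1 φ)) = (e1 φ : G.R1 B)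
    rw [e1.symm_apply_apply, he1]
    rfl

/-- A section whose values cut out a divisor identifies the datum with the line bundle of the
divisor. -/
theorem Equiv.ofSection (D : Datum G B) (E : Div G B) (s : D.H0)
    (h0 : D.values0 s.1.1 = E.I0) (h1 : D.values1 s.1.2 = E.I1) :
    Nonempty (Equiv D (pos E)) :=
  ⟨(D.exists_equiv_of_section E s h0 h1).choose⟩

/-- The trivial datum commutes with base change. -/
def BC.trivial (φ : B →ₐ[k] B') : BC φ (Datum.trivial G B) (Datum.trivial G B') where
  f0 := (G.bc0 φ).toRingHom.toAddMonoidHom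
  f1 := (G.bc1 φ).toRingHom.toAddMonoidHom
  f01 := (G.bc01 φ).toRingHom.toAddMonoidHom
  smul0 a p := map_mul (G.bc0 φ) a p
  smul1 a p := map_mul (G.bc1 φ) a p
  smul01 a p := map_mul (G.bc01 φ) a p
  comm0 := G.ρ0_bc0 φ
  comm1 := G.ρ1_bc1 φ
  span0 := span_range_ringHom_eq_top (G.bc0 φ).toRingHom
  span1 := span_range_ringHom_eq_top (G.bc1 φ).toRingHom
  span01 := span_range_ringHom_eq_top (G.bc01 φ).toRingHom

/-- The line bundle of a divisor commutes with base change. -/
def BC.pos (φ : B →ₐ[k] B') (E : Div G B) : BC φ (Datum.pos E) (Datum.pos (E.map φ)) :=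
  ((BC.trivial φ).sub E).dual

/-- The line bundle of equal divisors. -/
def posCongr {E F : Div G B} (h : E = F) : Equiv (pos E) (pos F) :=
  h ▸ Equiv.refl _

/-- Twisting by zero. -/
def twistZero (D : Datum G B) : Equiv (D.twist 0) D where
  e0 := LinearEquiv.refl _ _
  e1 := LinearEquiv.refl _ _
  e01 := LinearEquiv.refl _ _
  comm0 _ := rfl
  comm1 p := by
    change D.r1 p = (↑(G.xUnit B ^ (0 : ℤ)) : G.R01 B) • D.r1 p
    simp

/-- Twists compose. -/
def twistTwist (D : Datum G B) (m n : ℤ) : Equiv ((D.twist m).twist n) (D.twist (m + n)) where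
  e0 := LinearEquiv.refl _ _
  e1 := LinearEquiv.refl _ _
  e01 := LinearEquiv.refl _ _
  comm0 _ := rfl
  comm1 p := by
    change (↑(G.xUnit B ^ (m + n)) : G.R01 B) • D.r1 p =
      (↑(G.xUnit B ^ n) : G.R01 B) • ((↑(G.xUnit B ^ m) : G.R01 B) • D.r1 p)
    rw [← mul_smul, ← Units.val_mul, ← zpow_add, add_comm]

/-- An isomorphism on cochains. -/
def Equiv.cochains {D D' : Datum G B} (e : Equiv D D') : (D.P0 × D.P1) ≃ₗ[B] D'.P0 × D'.P1 :=
  (e.e0.restrictScalars B).prodCongr (e.e1.restrictScalars B)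

/-- An isomorphism of data commutes with the differential. -/
lemma Equiv.d_cochains {D D' : Datum G B} (e : Equiv D D') (p : D.P0 × D.P1) :
    D'.d (e.cochains p) = e.e01 (D.d p) := by
  rw [d_apply, d_apply, map_sub, ← e.comm0, ← e.comm1]
  rfl

/-- An isomorphism of data identifies global sections. -/
def Equiv.H0Equiv {D D' : Datum G B} (e : Equiv D D') : D.H0 ≃ₗ[B] D'.H0 :=
  e.cochains.ofSubmodules D.H0 D'.H0 (by
    ext q
    rw [Submodule.mem_map_equiv, LinearMap.mem_ker, LinearMap.mem_ker]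
    constructor
    · intro h
      rw [← e.cochains.apply_symm_apply q, e.d_cochains, h, map_zero]
    · intro h
      refine e.e01.injective ?_
      rw [← e.d_cochains, e.cochains.apply_symm_apply, h, map_zero])

/-- An isomorphism of data identifies first cohomology. -/
def Equiv.H1Equiv {D D' : Datum G B} (e : Equiv D D') : D.H1 ≃ₗ[B] D'.H1 :=
  Submodule.Quotient.equiv _ _ (e.e01.restrictScalars B) (by
    ext q
    constructor
    · rintro ⟨_, ⟨p, rfl⟩, rfl⟩
      exact ⟨e.cochains p, e.d_cochains p⟩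
    · rintro ⟨p, rfl⟩
      obtain ⟨p, rfl⟩ := e.cochains.surjective p
      exact ⟨D.d p, ⟨p, rfl⟩, (e.d_cochains p).symm⟩)

end Datum

end

end Fermat.PIC
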