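import Fermat.Agent.PIC.Ops.Finite
import Mathlib

/-!
# The divisor of a point over any base

`point0` and `point1` are the divisors of points of the two charts, equal on the overlap and
compatible with base change.
-/

set_option autoImplicit false

universe u

open scoped TensorProduct

namespace Fermat.PIC

noncomputable section

section Generic

variable {k : Type u} [Field k] {A : Type u} [CommRing A] [Algebra k A] {B : Type u} [CommRing B]
  [Algebra k B] (σ : A →ₐ[k] B)

/-- Evaluation at a point. -/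
abbrev evPt : B ⊗[k] A →ₐ[B] B :=
  Algebra.TensorProduct.lift (AlgHom.id B B) σ fun _ _ ↦ Commute.all _ _

/-- Evaluation at a point is surjective. -/
lemma evPt_surjective : Function.Surjective (evPt σ) := fun b ↦ ⟨b ⊗ₜ 1, by simp [evPt]⟩

/-- The ideal of a point is generated by the differences with the values. -/
lemma ker_evPt_eq_span :
    RingHom.ker (evPt σ) =
      Ideal.span (Set.range fun a : A ↦ (1 : B) ⊗ₜ[k] a - σ a ⊗ₜ[k] (1 : A)) := by
  refine le_antisymm (fun z hz ↦ ?_) ?_
  · set N := Ideal.span (Set.range fun a : A ↦ (1 : B) ⊗ₜ[k] a - σ a ⊗ₜ[k] (1 : A))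
    have key : ∀ z : B ⊗[k] A, z - evPt σ z ⊗ₜ[k] (1 : A) ∈ N := by
      intro z
      induction z using TensorProduct.induction_on with
      | zero => simp
      | tmul b a =>
        have : b ⊗ₜ[k] a - evPt σ (b ⊗ₜ a) ⊗ₜ[k] (1 : A) =
            (b ⊗ₜ[k] (1 : A)) * ((1 : B) ⊗ₜ[k] a - σ a ⊗ₜ[k] (1 : A)) := by
          simp [mul_sub, Algebra.TensorProduct.tmul_mul_tmul]
        rw [this]
        exact N.mul_mem_left _ (Ideal.subset_span ⟨a, rfl⟩)
      | add v w hv hw =>
        rw [map_add, TensorProduct.add_tmul, add_sub_add_comm]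
        exact add_mem hv hw
    have := key z
    rwa [RingHom.mem_ker.mp hz, TensorProduct.zero_tmul, sub_zero] at this
  · rw [Ideal.span_le]
    rintro _ ⟨a, rfl⟩
    simp [RingHom.mem_ker]

/-- The functions on a point. -/
def evPtEquiv : ((B ⊗[k] A) ⧸ RingHom.ker (evPt σ)) ≃ₗ[B] B :=
  (Ideal.quotientKerAlgEquivOfSurjective (evPt_surjective σ)).toLinearEquiv

/-- A point is finite over the base. -/
instance finite_quotient_evPt : Module.Finite B ((B ⊗[k] A) ⧸ RingHom.ker (evPt σ)) :=
  Module.Finite.equiv (evPtEquiv σ).symm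

/-- A point is projective over the base. -/
instance projective_quotient_evPt :
    Module.Projective B ((B ⊗[k] A) ⧸ RingHom.ker (evPt σ)) :=
  Module.Projective.of_equiv (evPtEquiv σ).symm

/-- Pullback of the ideal of a point. -/
lemma map_ker_evPt {B' : Type u} [CommRing B'] [Algebra k B'] (φ : B →ₐ[k] B') :
    (RingHom.ker (evPt σ)).map (Algebra.TensorProduct.map φ (AlgHom.id k A)) =
      RingHom.ker (evPt (φ.comp σ)) := by
  rw [ker_evPt_eq_span, ker_evPt_eq_span, Ideal.map_span, ← Set.range_comp]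
  congr 1
  ext z
  simp

end Generic

variable {k : Type u} [Field k] {G : CurveCharts k} {B B' : Type u} [CommRing B] [CommRing B']
  [Algebra k B] [Algebra k B']

namespace Div

/-- The divisor of a point of `U0`. -/
def point0 (σ : G.A0 →ₐ[k] B) : Div G B :=
  haveI : Module.Finite B (G.R0 B ⧸ RingHom.ker (G.ev0 σ)) := finite_quotient_evPt σ
  haveI : Module.Projective B (G.R0 B ⧸ RingHom.ker (G.ev0 σ)) := projective_quotient_evPt σ
  ofFinite0 (RingHom.ker (G.ev0 σ))

/-- The divisor of a point of `U1`. -/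
def point1 (σ : G.A1 →ₐ[k] B) : Div G B :=
  haveI : Module.Finite B (G.R1 B ⧸ RingHom.ker (G.ev1 σ)) := finite_quotient_evPt σ
  haveI : Module.Projective B (G.R1 B ⧸ RingHom.ker (G.ev1 σ)) := projective_quotient_evPt σ
  ofFinite1 (RingHom.ker (G.ev1 σ))

/-- Base change of the divisor of a point of `U0`. -/
lemma map_point0 (σ : G.A0 →ₐ[k] B) (φ : B →ₐ[k] B') :
    (point0 σ).map φ = point0 (φ.comp σ) := by
  have : Module.Finite B (G.R0 B ⧸ RingHom.ker (G.ev0 σ)) := finite_quotient_evPt σ
  have : Module.Projective B (G.R0 B ⧸ RingHom.ker (G.ev0 σ)) := projective_quotient_evPt σ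
  have : Module.Finite B' (G.R0 B' ⧸ RingHom.ker (G.ev0 (φ.comp σ))) := finite_quotient_evPt _
  have : Module.Projective B' (G.R0 B' ⧸ RingHom.ker (G.ev0 (φ.comp σ))) :=
    projective_quotient_evPt _
  exact map_ofFinite0 φ _ _ (map_ker_evPt σ φ)

/-- Base change of the divisor of a point of `U1`. -/
lemma map_point1 (σ : G.A1 →ₐ[k] B) (φ : B →ₐ[k] B') :
    (point1 σ).map φ = point1 (φ.comp σ) := by
  have : Module.Finite B (G.R1 B ⧸ RingHom.ker (G.ev1 σ)) := finite_quotient_evPt σ
  have : Module.Projective B (G.R1 B ⧸ RingHom.ker (G.ev1 σ)) := projective_quotient_evPt σ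
  have : Module.Finite B' (G.R1 B' ⧸ RingHom.ker (G.ev1 (φ.comp σ))) := finite_quotient_evPt _
  have : Module.Projective B' (G.R1 B' ⧸ RingHom.ker (G.ev1 (φ.comp σ))) :=
    projective_quotient_evPt _
  exact map_ofFinite1 φ _ _ (map_ker_evPt σ φ)

/-- The two definitions of the divisor of a point of the overlap agree. -/
lemma point0_eq_point1 (τ : G.A01 →ₐ[k] B) :
    point0 (τ.comp G.res0) = point1 (τ.comp G.res1) := by
  let K : Ideal (G.R01 B) := RingHom.ker (evPt τ)
  have h0 : RingHom.ker (G.ev0 (τ.comp G.res0)) = K.comap (G.ρ0 B) := by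
    ext z
    have : ∀ z : G.R0 B, G.ev0 (τ.comp G.res0) z = evPt τ (G.ρ0 B z) := by
      intro z
      induction z using TensorProduct.induction_on with
      | zero => simp
      | add v w hv hw => simp only [map_add, hv, hw]
      | tmul b a => simp [CurveCharts.ev0, CurveCharts.ρ0]
    simp [K, RingHom.mem_ker, this]
  have h1 : RingHom.ker (G.ev1 (τ.comp G.res1)) = K.comap (G.ρ1 B) := by
    ext z
    have : ∀ z : G.R1 B, G.ev1 (τ.comp G.res1) z = evPt τ (G.ρ1 B z) := by
      intro z
      induction z using TensorProduct.induction_on with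
      | zero => simp
      | add v w hv hw => simp only [map_add, hv, hw]
      | tmul b a => simp [CurveCharts.ev1, CurveCharts.ρ1]
    simp [K, RingHom.mem_ker, this]
  refine ext' ?_ ?_
  · change RingHom.ker (G.ev0 (τ.comp G.res0)) =
      ((RingHom.ker (G.ev1 (τ.comp G.res1))).map (G.ρ1 B)).comap (G.ρ0 B)
    rw [h0, h1]
    exact congrArg (Ideal.comap (G.ρ0 B)) ((G.isChartMap1 B).map_comap K).symm
  · change ((RingHom.ker (G.ev0 (τ.comp G.res0))).map (G.ρ0 B)).comap (G.ρ1 B) =
      RingHom.ker (G.ev1 (τ.comp G.res1))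
    rw [h0, h1]
    exact congrArg (Ideal.comap (G.ρ1 B)) ((G.isChartMap0 B).map_comap K)

end Div

end

end Fermat.PIC
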