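import Fermat.Agent.PIC.Chart.Bounded
import Mathlib

/-!
# Monic polynomials in the coordinate are regular on a chart over any base

Regularity follows from a locally nilpotent left inverse of multiplication by the coordinate.
-/

set_option autoImplicit false

universe u

open Polynomial

namespace Fermat.PIC

noncomputable section

/-- A monic polynomial in an element admitting a locally nilpotent left inverse is regular. -/
lemma monic_aeval_mem_nonZeroDivisors {B R : Type*} [CommRing B] [CommRing R] [Algebra B R]
    {x : R} (T : R →ₗ[B] R) (hT : ∀ a, T (x * a) = a) (hnil : ∀ a, ∃ n, (T ^ n) a = 0)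
    {p : B[X]} (hp : p.Monic) : aeval x p ∈ nonZeroDivisors R := by
  rw [mem_nonZeroDivisors_iff_right]
  intro a ha
  -- `T ^ m` undoes multiplication by `x ^ m`
  have hTx : ∀ m b, (T ^ m) (x ^ m * b) = b := by
    intro m
    induction m with
    | zero => intro b; simp
    | succ m ih =>
      intro b
      rw [pow_succ', pow_succ, mul_assoc, Module.End.mul_apply, ih, hT]
  set d := p.natDegree
  rcases Nat.eq_zero_or_pos d with hd | hd
  · rw [hp.natDegree_eq_zero.mp hd, map_one, mul_one] at ha
    exact ha
  -- from `a * p x = 0`: `T * U` fixes `a`, for `U` commuting with `T`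
  let U : Module.End B R := -∑ j ∈ Finset.range d, p.coeff j • T ^ (d - 1 - j)
  have hcomm : Commute T U :=
    (Commute.sum_right _ _ _ fun j _ ↦ ((Commute.refl T).pow_right _).smul_right _).neg_right
  have key : (T * U) a = a := by
    have h0 : (T ^ d) (∑ j ∈ Finset.range (d + 1), p.coeff j • (x ^ j * a)) = 0 := by
      have : (∑ j ∈ Finset.range (d + 1), p.coeff j • (x ^ j * a)) = 0 := by
        rw [← ha, aeval_eq_sum_range, Finset.mul_sum]
        exact Finset.sum_congr rfl fun j _ ↦ by rw [mul_comm a, smul_mul_assoc]
      rw [this, map_zero]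
    rw [map_sum, Finset.sum_range_succ, show p.coeff d = 1 from hp.coeff_natDegree, one_smul,
      hTx] at h0
    rw [Module.End.mul_apply, LinearMap.neg_apply, map_neg, LinearMap.sum_apply, map_sum]
    have hterm : ∀ j ∈ Finset.range d,
        T ((p.coeff j • T ^ (d - 1 - j)) a) = (T ^ d) (p.coeff j • (x ^ j * a)) := by
      intro j hj
      have hj' := Finset.mem_range.mp hj
      obtain ⟨e, he⟩ : ∃ e, d = e + 1 + j := ⟨d - 1 - j, by omega⟩
      rw [LinearMap.smul_apply, map_smul, map_smul, show d - 1 - j = e by omega, he, pow_add,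
        Module.End.mul_apply, hTx, pow_succ', Module.End.mul_apply]
    rw [Finset.sum_congr rfl hterm]
    linear_combination -h0
  -- as `T` is locally nilpotent, so is `T * U`, hence `a = 0`
  obtain ⟨n, hn⟩ := hnil a
  have hpow : ((T * U) ^ n) a = a := by
    clear hn
    induction n with
    | zero => rfl
    | succ n ih => rw [pow_succ, Module.End.mul_apply, key, ih]
  rw [hcomm.mul_pow, (hcomm.pow_pow n n).eq, Module.End.mul_apply, hn, map_zero] at hpow
  exact hpow.symm

variable {k : Type u} [Field k] (G : CurveCharts k) (B : Type u) [CommRing B] [Algebra k B]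

/-- Monic polynomials in `x` are regular on `U0` over any base. -/
theorem CurveCharts.monic_X0_mem_nonZeroDivisors {p : B[X]} (hp : p.Monic) :
    aeval (G.X0 B) p ∈ nonZeroDivisors (G.R0 B) :=
  let ⟨T, hT, hnil⟩ := exists_divX_tensor G.finite0 G.injective0 B
  monic_aeval_mem_nonZeroDivisors T hT hnil hp

/-- Monic polynomials in `y` are regular on `U1` over any base. -/
theorem CurveCharts.monic_Y1_mem_nonZeroDivisors {p : B[X]} (hp : p.Monic) :
    aeval (G.Y1 B) p ∈ nonZeroDivisors (G.R1 B) :=
  let ⟨T, hT, hnil⟩ := exists_divX_tensor G.finite1 G.injective1 B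
  monic_aeval_mem_nonZeroDivisors T hT hnil hp

end

end Fermat.PIC
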