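import Fermat.Agent.PIC.Ops.Sub
import Fermat.Agent.PIC.Ops.Monic
import Mathlib

/-!
# Functoriality of base changes of data

Base changes compose and are unique up to a unique isomorphism (`BC.exists_unique_equiv`).
-/

set_option autoImplicit false

universe u

open scoped TensorProduct
open Polynomial

namespace Fermat.PIC

noncomputable section

variable {k : Type u} [Field k] (G : CurveCharts k) {B B' B'' : Type u} [CommRing B] [CommRing B']
  [CommRing B''] [Algebra k B] [Algebra k B'] [Algebra k B'']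

namespace CurveCharts

/-- Base change on a pure tensor. -/
lemma bc0_tmul (φ : B →ₐ[k] B') (b : B) (a : G.A0) : G.bc0 φ (b ⊗ₜ a) = φ b ⊗ₜ a := rfl

/-- Base change preserves the coordinate unit. -/
lemma bc01_xUnit (φ : B →ₐ[k] B') :
    Units.map (G.bc01 φ : G.R01 B →* G.R01 B') (G.xUnit B) = G.xUnit B' := by
  ext
  simp [xUnit, ρ0, X0, bc01]

/-- Base change preserves the powers of the coordinate unit. -/
lemma bc01_xUnit_zpow (φ : B →ₐ[k] B') (n : ℤ) :
    G.bc01 φ ((G.xUnit B ^ n : (G.R01 B)ˣ) : G.R01 B) =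
      ((G.xUnit B' ^ n : (G.R01 B')ˣ) : G.R01 B') := by
  rw [← bc01_xUnit G φ, ← map_zpow]
  rfl

/-- Base change of a polynomial in `x`. -/
lemma bc0_aeval (φ : B →ₐ[k] B') (p : B[X]) :
    G.bc0 φ (aeval (G.X0 B) p) = aeval (G.X0 B') (p.map φ.toRingHom) := by
  induction p using Polynomial.induction_on' with
  | add p q hp hq => rw [Polynomial.map_add, map_add, map_add, map_add, hp, hq]
  | monomial n a =>
    rw [Polynomial.map_monomial, aeval_monomial, aeval_monomial, map_mul, map_pow, bc0_X0]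
    simp [bc0, Algebra.TensorProduct.algebraMap_apply]

/-- Base change of a polynomial in `y`. -/
lemma bc1_aeval (φ : B →ₐ[k] B') (p : B[X]) :
    G.bc1 φ (aeval (G.Y1 B) p) = aeval (G.Y1 B') (p.map φ.toRingHom) := by
  induction p using Polynomial.induction_on' with
  | add p q hp hq => rw [Polynomial.map_add, map_add, map_add, map_add, hp, hq]
  | monomial n a =>
    rw [Polynomial.map_monomial, aeval_monomial, aeval_monomial, map_mul, map_pow, bc1_Y1]
    simp [bc1, Algebra.TensorProduct.algebraMap_apply]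

end CurveCharts

/-- A composite of semilinear maps with spanning images has spanning image. -/
lemma span_range_comp_eq_top {R' R'' P P' P'' : Type*} [CommRing R'] [CommRing R'']
    [AddCommGroup P] [AddCommGroup P'] [AddCommGroup P''] [Module R' P'] [Module R'' P'']
    (ψ : R' →+* R'') (f : P →+ P') (g : P' →+ P'') (hg : ∀ (a : R') p, g (a • p) = ψ a • g p)
    (hf : Submodule.span R' (Set.range f) = ⊤) (hspan : Submodule.span R'' (Set.range g) = ⊤) :
    Submodule.span R'' (Set.range (g.comp f)) = ⊤ := by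
  rw [eq_top_iff, ← hspan, Submodule.span_le]
  rintro _ ⟨q, rfl⟩
  have hq : q ∈ Submodule.span R' (Set.range f) := hf ▸ trivial
  induction hq using Submodule.span_induction with
  | mem q hq =>
    obtain ⟨p, rfl⟩ := hq
    exact Submodule.subset_span ⟨p, rfl⟩
  | zero => simp
  | add a b _ _ ha hb => rw [SetLike.mem_coe, map_add]; exact add_mem ha hb
  | smul s q _ hq => rw [SetLike.mem_coe, hg]; exact Submodule.smul_mem _ _ hq

namespace Datum

variable {G}

/-- Every datum is its own base change along the identity. -/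
def BC.id (D : Datum G B) : BC (AlgHom.id k B) D D where
  f0 := AddMonoidHom.id _
  f1 := AddMonoidHom.id _
  f01 := AddMonoidHom.id _
  smul0 a p := by rw [G.bc0_id]; rfl
  smul1 a p := by rw [G.bc1_id]; rfl
  smul01 a p := by rw [G.bc01_id]; rfl
  comm0 _ := rfl
  comm1 _ := rfl
  span0 := by simp
  span1 := by simp
  span01 := by simp

/-- Base changes compose. -/
def BC.comp {φ : B →ₐ[k] B'} {ψ : B' →ₐ[k] B''} {D : Datum G B} {D' : Datum G B'}
    {D'' : Datum G B''} (c : BC φ D D') (c' : BC ψ D' D'') : BC (ψ.comp φ) D D'' where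
  f0 := c'.f0.comp c.f0
  f1 := c'.f1.comp c.f1
  f01 := c'.f01.comp c.f01
  smul0 a p := by
    rw [AddMonoidHom.comp_apply, AddMonoidHom.comp_apply, c.smul0, c'.smul0, G.bc0_bc0]
  smul1 a p := by
    rw [AddMonoidHom.comp_apply, AddMonoidHom.comp_apply, c.smul1, c'.smul1, G.bc1_bc1]
  smul01 a p := by
    rw [AddMonoidHom.comp_apply, AddMonoidHom.comp_apply, c.smul01, c'.smul01, G.bc01_bc01]
  comm0 p := by rw [AddMonoidHom.comp_apply, AddMonoidHom.comp_apply, c'.comm0, c.comm0]
  comm1 p := by rw [AddMonoidHom.comp_apply, AddMonoidHom.comp_apply, c'.comm1, c.comm1]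
  span0 := span_range_comp_eq_top (G.bc0 ψ).toRingHom _ _ c'.smul0 c.span0 c'.span0
  span1 := span_range_comp_eq_top (G.bc1 ψ).toRingHom _ _ c'.smul1 c.span1 c'.span1
  span01 := span_range_comp_eq_top (G.bc01 ψ).toRingHom _ _ c'.smul01 c.span01 c'.span01

/-- An isomorphism of data is a base change along the identity. -/
def Equiv.toBC {D D' : Datum G B} (e : Equiv D D') : BC (AlgHom.id k B) D D' where
  f0 := e.e0.toAddMonoidHom
  f1 := e.e1.toAddMonoidHom
  f01 := e.e01.toAddMonoidHom
  smul0 a p := by rw [G.bc0_id]; exact map_smul e.e0 a p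
  smul1 a p := by rw [G.bc1_id]; exact map_smul e.e1 a p
  smul01 a p := by rw [G.bc01_id]; exact map_smul e.e01 a p
  comm0 := e.comm0
  comm1 := e.comm1
  span0 := by
    rw [show Set.range ⇑e.e0.toAddMonoidHom = Set.univ from e.e0.surjective.range_eq,
      Submodule.span_univ]
  span1 := by
    rw [show Set.range ⇑e.e1.toAddMonoidHom = Set.univ from e.e1.surjective.range_eq,
      Submodule.span_univ]
  span01 := by
    rw [show Set.range ⇑e.e01.toAddMonoidHom = Set.univ from e.e01.surjective.range_eq,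
      Submodule.span_univ]

/-- A base change along a map equal to the given one. -/
def BC.copy {φ ψ : B →ₐ[k] B'} (h : φ = ψ) {D : Datum G B} {D' : Datum G B'} (c : BC φ D D') :
    BC ψ D D' where
  f0 := c.f0
  f1 := c.f1
  f01 := c.f01
  smul0 a p := by subst h; exact c.smul0 a p
  smul1 a p := by subst h; exact c.smul1 a p
  smul01 a p := by subst h; exact c.smul01 a p
  comm0 := c.comm0
  comm1 := c.comm1
  span0 := c.span0
  span1 := c.span1
  span01 := c.span01

/-- Transport of a base change along isomorphisms. -/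
def BC.congr {φ : B →ₐ[k] B'} {D D₁ : Datum G B} {D' D₁' : Datum G B'} (c : BC φ D D')
    (e : Equiv D D₁) (e' : Equiv D' D₁') : BC φ D₁ D₁' :=
  BC.copy (by ext; simp) (e.symm.toBC.comp (c.comp e'.toBC))

/-- Two base changes of a datum along the same map are canonically isomorphic. -/
theorem BC.exists_unique_equiv {φ : B →ₐ[k] B'} {D : Datum G B} {D₁ D₂ : Datum G B'}
    (c₁ : BC φ D D₁) (c₂ : BC φ D D₂) :
    ∃! e : Equiv D₁ D₂, (∀ p, e.e0 (c₁.f0 p) = c₂.f0 p) ∧ (∀ p, e.e1 (c₁.f1 p) = c₂.f1 p) ∧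
      ∀ p, e.e01 (c₁.f01 p) = c₂.f01 p := by
  have mk : ∀ {R R' : Type u} [CommRing R] [CommRing R'] (χ : R →+* R') {P P₁ P₂ : Type u}
      [AddCommGroup P] [AddCommGroup P₁] [AddCommGroup P₂] [Module R P] [Module R' P₁]
      [Module R' P₂] [Module.Invertible R P] [Module.Invertible R' P₁] [Module.Invertible R' P₂]
      (f₁ : P →+ P₁) (f₂ : P →+ P₂), (∀ (a : R) p, f₁ (a • p) = χ a • f₁ p) →
      (∀ (a : R) p, f₂ (a • p) = χ a • f₂ p) → Submodule.span R' (Set.range f₁) = ⊤ →
      Submodule.span R' (Set.range f₂) = ⊤ →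
      ∃ e : P₁ ≃ₗ[R'] P₂, ∀ p, e (f₁ p) = f₂ p := by
    intro R R' _ _ χ P P₁ P₂ _ _ _ _ _ _ _ _ _ f₁ f₂ h₁ h₂ s₁ s₂
    obtain ⟨g, hg⟩ := exists_semilinear_lift χ f₁ h₁ s₁ f₂ h₂
    obtain ⟨g', hg'⟩ := exists_semilinear_lift χ f₂ h₂ s₂ f₁ h₁
    exact ⟨LinearEquiv.ofLinearMap g g'
      (LinearMap.ext_on_range s₂ fun p ↦ by simp [hg', hg])
      (LinearMap.ext_on_range s₁ fun p ↦ by simp [hg', hg]), fun p ↦ hg p⟩
  -- the three modules separately; the squares commute on the spanning images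
  obtain ⟨e0, h0⟩ := mk (G.bc0 φ).toRingHom c₁.f0 c₂.f0 c₁.smul0 c₂.smul0 c₁.span0 c₂.span0
  obtain ⟨e1, h1⟩ := mk (G.bc1 φ).toRingHom c₁.f1 c₂.f1 c₁.smul1 c₂.smul1 c₁.span1 c₂.span1
  obtain ⟨e01, h01⟩ := mk (G.bc01 φ).toRingHom c₁.f01 c₂.f01 c₁.smul01 c₂.smul01 c₁.span01 c₂.span01
  let e : Equiv D₁ D₂ :=
    { e0 := e0
      e1 := e1
      e01 := e01
      comm0 := fun q ↦ by
        have hq : q ∈ Submodule.span (G.R0 B') (Set.range c₁.f0) := c₁.span0 ▸ Submodule.mem_top
        induction hq using Submodule.span_induction with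
        | mem q hq =>
          obtain ⟨p, rfl⟩ := hq
          rw [h0, c₂.comm0, c₁.comm0, h01]
        | zero => simp
        | add a b _ _ ha hb => simp only [map_add, ha, hb]
        | smul s q _ hq => rw [map_smul, D₂.r0_smul, hq, D₁.r0_smul, map_smul]
      comm1 := fun q ↦ by
        have hq : q ∈ Submodule.span (G.R1 B') (Set.range c₁.f1) := c₁.span1 ▸ Submodule.mem_top
        induction hq using Submodule.span_induction with
        | mem q hq =>
          obtain ⟨p, rfl⟩ := hq
          rw [h1, c₂.comm1, c₁.comm1, h01]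
        | zero => simp
        | add a b _ _ ha hb => simp only [map_add, ha, hb]
        | smul s q _ hq => rw [map_smul, D₂.r1_smul, hq, D₁.r1_smul, map_smul] }
  refine ⟨e, ⟨h0, h1, h01⟩, ?_⟩
  rintro ⟨a, b, c, ca, cb⟩ ⟨ha, hb, hc⟩
  have ea : a = e0 := LinearEquiv.toLinearMap_injective
    (LinearMap.ext_on_range c₁.span0 fun p ↦ (ha p).trans (h0 p).symm)
  have eb : b = e1 := LinearEquiv.toLinearMap_injective
    (LinearMap.ext_on_range c₁.span1 fun p ↦ (hb p).trans (h1 p).symm)
  have ec : c = e01 := LinearEquiv.toLinearMap_injective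
    (LinearMap.ext_on_range c₁.span01 fun p ↦ (hc p).trans (h01 p).symm)
  subst ea eb ec
  rfl

/-- Two base changes of a datum along the same map are isomorphic. -/
theorem BC.nonempty_equiv {φ : B →ₐ[k] B'} {D : Datum G B} {D₁ D₂ : Datum G B'}
    (c₁ : BC φ D D₁) (c₂ : BC φ D D₂) : Nonempty (Equiv D₁ D₂) :=
  ⟨(c₁.exists_unique_equiv c₂).choose⟩

/-- Base change commutes with twisting. -/
def BC.twist {φ : B →ₐ[k] B'} {D : Datum G B} {D' : Datum G B'} (c : BC φ D D') (n : ℤ) :
    BC φ (D.twist n) (D'.twist n) where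
  f0 := c.f0
  f1 := c.f1
  f01 := c.f01
  smul0 := c.smul0
  smul1 := c.smul1
  smul01 := c.smul01
  comm0 := c.comm0
  comm1 p := by
    change (↑(G.xUnit B' ^ n) : G.R01 B') • D'.r1 (c.f1 p) =
      c.f01 ((↑(G.xUnit B ^ n) : G.R01 B) • D.r1 p)
    rw [c.smul01, G.bc01_xUnit_zpow, c.comm1]
  span0 := c.span0
  span1 := c.span1
  span01 := c.span01

/-- Twisting respects isomorphisms. -/
def Equiv.twist {D D' : Datum G B} (e : Equiv D D') (n : ℤ) : Equiv (D.twist n) (D'.twist n) where
  e0 := e.e0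
  e1 := e.e1
  e01 := e.e01
  comm0 := e.comm0
  comm1 p := by
    change (↑(G.xUnit B ^ n) : G.R01 B) • D'.r1 (e.e1 p) =
      e.e01 ((↑(G.xUnit B ^ n) : G.R01 B) • D.r1 p)
    rw [map_smul, e.comm1]

end Datum

end

end Fermat.PIC
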