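import Mathlib

/-!
# Finite locally free subschemes of a chart stay finite locally free after base change

`exists_quotBC` identifies the quotient by a pulled back ideal with the base change of the quotient.
-/

set_option autoImplicit false

universe u

open scoped TensorProduct

namespace Fermat.PIC

noncomputable section

variable {k : Type u} [Field k] {A : Type u} [CommRing A] [Algebra k A] {B B' : Type u} [CommRing B]
  [CommRing B'] [Algebra k B] [Algebra k B']

/-- The quotient by a pulled back ideal is the base change of the quotient. -/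
theorem exists_quotBC [Algebra B B'] [IsScalarTower k B B'] (I : Ideal (B ⊗[k] A)) :
    ∃ e : B' ⊗[B] ((B ⊗[k] A) ⧸ I) ≃ₗ[B'] (B' ⊗[k] A) ⧸
        I.map (Algebra.TensorProduct.map (IsScalarTower.toAlgHom k B B') (AlgHom.id k A)),
      ∀ (c : B') (r : B ⊗[k] A), e (c ⊗ₜ[B] Ideal.Quotient.mk I r) = c • Ideal.Quotient.mk _
        (Algebra.TensorProduct.map (IsScalarTower.toAlgHom k B B') (AlgHom.id k A) r) := by
  let φ : B →ₐ[k] B' := IsScalarTower.toAlgHom k B B'
  let bc : B ⊗[k] A →ₐ[k] B' ⊗[k] A := Algebra.TensorProduct.map φ (AlgHom.id k A)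
  let Q := (B ⊗[k] A) ⧸ I
  let I' := I.map bc
  let s0 : B' ⊗[k] A →ₐ[B'] B' ⊗[B] Q :=
    Algebra.TensorProduct.lift (Algebra.ofId B' _)
      ((((Algebra.TensorProduct.includeRight : Q →ₐ[B] B' ⊗[B] Q).restrictScalars k).comp
        (Ideal.Quotient.mkₐ k I)).comp Algebra.TensorProduct.includeRight)
      fun x y ↦ Algebra.commutes x _
  have hs : ∀ r : B ⊗[k] A, s0 (bc r) = (1 : B') ⊗ₜ[B] Ideal.Quotient.mk I r := by
    intro r
    induction r using TensorProduct.induction_on with
    | zero => simp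
    | add v w hv hw => simp only [map_add, TensorProduct.tmul_add, hv, hw]
    | tmul b a =>
      have e : (b ⊗ₜ[k] a : B ⊗[k] A) = b • ((1 : B) ⊗ₜ[k] a) := by
        rw [TensorProduct.smul_tmul', smul_eq_mul, mul_one]
      rw [show bc (b ⊗ₜ[k] a) = φ b ⊗ₜ[k] a from rfl]
      conv_rhs => rw [e, ← Ideal.Quotient.mkₐ_eq_mk B, map_smul, TensorProduct.tmul_smul]
      erw [Algebra.TensorProduct.lift_tmul]
      change (φ b ⊗ₜ[B] (1 : Q)) *
        ((1 : B') ⊗ₜ[B] (Ideal.Quotient.mk I ((1 : B) ⊗ₜ[k] a) : Q)) = _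
      rw [Algebra.TensorProduct.tmul_mul_tmul, mul_one, one_mul, TensorProduct.smul_tmul',
        Algebra.smul_def, mul_one]
      rfl
  -- the candidate inverse, killing the extended ideal
  let s : (B' ⊗[k] A) ⧸ I' →ₐ[B'] B' ⊗[B] Q := Ideal.Quotient.liftₐ I' s0 fun r hr ↦ by
    refine Submodule.span_induction ?_ (map_zero s0) ?_ ?_ hr
    · rintro _ ⟨x, hx, rfl⟩
      rw [hs, Ideal.Quotient.eq_zero_iff_mem.mpr hx, TensorProduct.tmul_zero]
    · intro v w _ _ hv hw
      rw [map_add, hv, hw, add_zero]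
    · intro c v _ hv
      rw [smul_eq_mul, map_mul, hv, mul_zero]
  let ψ0 : Q →ₐ[B] (B' ⊗[k] A) ⧸ I' :=
    { Ideal.quotientMap I' bc.toRingHom Ideal.le_comap_map with
      commutes' := fun b ↦ by
        change Ideal.quotientMap I' bc.toRingHom Ideal.le_comap_map
          (Ideal.Quotient.mk I (b ⊗ₜ[k] (1 : A))) = _
        refine Ideal.quotientMap_mk.trans ?_
        rfl }
  -- the natural map, with left inverse `s` and onto
  let ψ : B' ⊗[B] Q →ₐ[B'] (B' ⊗[k] A) ⧸ I' :=
    Algebra.TensorProduct.lift (Algebra.ofId B' _) ψ0 fun _ _ ↦ Commute.all _ _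
  have h1 : ∀ x, s (ψ x) = x := by
    intro x
    induction x using TensorProduct.induction_on with
    | zero => simp
    | add v w hv hw => rw [map_add, map_add, hv, hw]
    | tmul b q =>
      obtain ⟨r, rfl⟩ := Ideal.Quotient.mk_surjective q
      rw [show (b ⊗ₜ[B] Ideal.Quotient.mk I r : B' ⊗[B] Q) =
        b • ((1 : B') ⊗ₜ[B] Ideal.Quotient.mk I r) by
          rw [TensorProduct.smul_tmul', smul_eq_mul, mul_one], map_smul, map_smul]
      congr 1
      simp only [ψ, Algebra.TensorProduct.lift_tmul, map_one, one_mul]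
      exact hs r
  have h2 : Function.Surjective ψ := by
    intro y
    obtain ⟨r, rfl⟩ := Ideal.Quotient.mk_surjective y
    induction r using TensorProduct.induction_on with
    | zero => exact ⟨0, by simp⟩
    | add v w hv hw =>
      obtain ⟨x, hx⟩ := hv
      obtain ⟨x', hx'⟩ := hw
      exact ⟨x + x', by rw [map_add, map_add, hx, hx']⟩
    | tmul b a =>
      refine ⟨b ⊗ₜ[B] Ideal.Quotient.mk I ((1 : B) ⊗ₜ[k] a), ?_⟩
      simp only [ψ, Algebra.TensorProduct.lift_tmul]
      change Ideal.Quotient.mk I' (b ⊗ₜ[k] (1 : A)) * Ideal.Quotient.mk I'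
        (bc ((1 : B) ⊗ₜ[k] a)) = _
      rw [← map_mul, show bc ((1 : B) ⊗ₜ[k] a) = (1 : B') ⊗ₜ[k] a by simp [bc],
        Algebra.TensorProduct.tmul_mul_tmul, mul_one, one_mul]
  let e : B' ⊗[B] Q ≃ₗ[B'] (B' ⊗[k] A) ⧸ I' :=
    LinearEquiv.ofBijective ψ.toLinearMap ⟨Function.LeftInverse.injective h1, h2⟩
  refine ⟨e, fun c r ↦ ?_⟩
  change ψ (c ⊗ₜ[B] Ideal.Quotient.mk I r) = _
  simp only [ψ, Algebra.TensorProduct.lift_tmul]
  exact (Algebra.smul_def c _).symm

/-- Finite locally free quotients stay so after base change. -/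
theorem finite_projective_quotient_map (φ : B →ₐ[k] B') (I : Ideal (B ⊗[k] A))
    [Module.Finite B ((B ⊗[k] A) ⧸ I)] [Module.Projective B ((B ⊗[k] A) ⧸ I)] :
    Module.Finite B' ((B' ⊗[k] A) ⧸ I.map (Algebra.TensorProduct.map φ (AlgHom.id k A))) ∧
      Module.Projective B'
        ((B' ⊗[k] A) ⧸ I.map (Algebra.TensorProduct.map φ (AlgHom.id k A))) := by
  let := φ.toRingHom.toAlgebra
  have : IsScalarTower k B B' := IsScalarTower.of_algebraMap_eq fun c ↦ (φ.commutes c).symm
  have hφ : IsScalarTower.toAlgHom k B B' = φ := AlgHom.ext fun _ ↦ rfl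
  obtain ⟨e, -⟩ := exists_quotBC (B' := B') I
  rw [hφ] at e
  exact ⟨Module.Finite.equiv e, Module.Projective.of_equiv e⟩

end

end Fermat.PIC
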