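import Fermat.Agent.PIC.Ops.Proj
import Mathlib

/-!
# Divisors finite and projective over the base inside one of the charts

`ofFinite0` and `ofFinite1` are these divisors, compatible with base change.
-/

set_option autoImplicit false

universe u

open Polynomial

namespace Fermat.PIC

noncomputable section

variable {k : Type u} [Field k] {G : CurveCharts k} {B B' : Type u} [CommRing B] [CommRing B']
  [Algebra k B] [Algebra k B']

/-- A finite quotient gives a monic relation for any element. -/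
lemma exists_monic_aeval_mem {R : Type*} [CommRing R] [Algebra B R] (I : Ideal R)
    [Module.Finite B (R ⧸ I)] (x : R) : ∃ q : B[X], q.Monic ∧ aeval x q ∈ I := by
  obtain ⟨q, hq, h0⟩ := IsIntegral.of_finite B (Ideal.Quotient.mkₐ B I x)
  refine ⟨q, hq, ?_⟩
  rw [← aeval_def, aeval_algHom_apply] at h0
  exact Ideal.Quotient.eq_zero_iff_mem.mp h0

/-- Monic polynomials in `x` stay regular after any base change. -/
lemma CurveCharts.monic_ureg0 {p : B[X]} (hp : p.Monic) : G.UReg0 (aeval (G.X0 B) p) :=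
  fun B' _ _ φ ↦ by rw [G.bc0_aeval]; exact G.monic_X0_mem_nonZeroDivisors B' (hp.map _)

/-- Monic polynomials in `y` stay regular after any base change. -/
lemma CurveCharts.monic_ureg1 {p : B[X]} (hp : p.Monic) : G.UReg1 (aeval (G.Y1 B) p) :=
  fun B' _ _ φ ↦ by rw [G.bc1_aeval]; exact G.monic_Y1_mem_nonZeroDivisors B' (hp.map _)

/-- Restriction from `U0` is a chart map, with the unit written as a double inverse. -/
lemma CurveCharts.isChartMap0_inv :
    IsChartMap (G.ρ0 B : G.R0 B →+* G.R01 B) (G.X0 B) ((G.xUnit B)⁻¹)⁻¹ := by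
  rw [inv_inv]; exact G.isChartMap0 B

/-- A monic polynomial in `x` is, up to a power of `x` on the overlap, a regular function on `U1`
coprime to `y`. -/
lemma CurveCharts.exists_reverse_ureg1 {p : B[X]} (hp : p.Monic) :
    ∃ u : G.R1 B, IsCoprime (G.Y1 B) u ∧ G.UReg1 u ∧
      ∃ d : ℕ, G.ρ1 B u * (G.xUnit B : G.R01 B) ^ d = G.ρ0 B (aeval (G.X0 B) p) := by
  obtain ⟨u, hu, h⟩ := exists_reverse (ρ := G.ρ0 B) (ρ' := G.ρ1 B) (G.isChartMap0 B)
    (G.isChartMap1 B) p hp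
  refine ⟨u, hu, fun B' _ _ φ ↦ (G.isChartMap1 B').regular_of_map ?_, _, h⟩
  have h' := congrArg (G.bc01 φ) h
  rw [map_mul, ← G.ρ1_bc1, ← G.ρ0_bc0] at h'
  have hreg := (G.isChartMap0 B').regular_map ((monic_ureg0 hp) B' φ)
  change G.ρ0 B' _ ∈ _ at hreg
  rw [← h', mul_mem_nonZeroDivisors] at hreg
  exact hreg.1

/-- A monic polynomial in `y` is, up to a power of `y` on the overlap, a regular function on `U0`
coprime to `x`. -/
lemma CurveCharts.exists_reverse_ureg0 {p : B[X]} (hp : p.Monic) :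
    ∃ u : G.R0 B, IsCoprime (G.X0 B) u ∧ G.UReg0 u ∧
      ∃ d : ℕ, G.ρ0 B u * (↑(G.xUnit B)⁻¹ : G.R01 B) ^ d = G.ρ1 B (aeval (G.Y1 B) p) := by
  obtain ⟨u, hu, h⟩ := exists_reverse (ρ := G.ρ1 B) (ρ' := G.ρ0 B) (G.isChartMap1 B)
    G.isChartMap0_inv p hp
  refine ⟨u, hu, fun B' _ _ φ ↦ (G.isChartMap0 B').regular_of_map ?_, _, h⟩
  have h' := congrArg (G.bc01 φ) h
  rw [map_mul, ← G.ρ0_bc0, ← G.ρ1_bc1] at h'
  have hreg := (G.isChartMap1 B').regular_map ((monic_ureg1 hp) B' φ)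
  change G.ρ1 B' _ ∈ _ at hreg
  rw [← h', mul_mem_nonZeroDivisors] at hreg
  exact hreg.1

namespace Div

/-- A finite locally free ideal of `U0` has a cofactor for a monic polynomial in `x`. -/
lemma exists_cofactor0 (I : Ideal (G.R0 B)) [Module.Finite B (G.R0 B ⧸ I)]
    [Module.Projective B (G.R0 B ⧸ I)] :
    ∃ (p : B[X]) (J : Ideal (G.R0 B)), p.Monic ∧ aeval (G.X0 B) p ∈ I ∧
      I * J = Ideal.span {aeval (G.X0 B) p} := by
  obtain ⟨p, hp, hpI⟩ := exists_monic_aeval_mem (B := B) I (G.X0 B)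
  obtain ⟨h1, h2⟩ := projective_of_finite_projective_quotient I G.diag0
  have := invertible_of_projective I hpI (G.monic_X0_mem_nonZeroDivisors B hp)
  obtain ⟨J, -, hJ⟩ := exists_mul_eq_span I hpI
  exact ⟨p, J, hp, hpI, hJ⟩

/-- A finite locally free ideal of `U1` has a cofactor for a monic polynomial in `y`. -/
lemma exists_cofactor1 (I : Ideal (G.R1 B)) [Module.Finite B (G.R1 B ⧸ I)]
    [Module.Projective B (G.R1 B ⧸ I)] :
    ∃ (p : B[X]) (J : Ideal (G.R1 B)), p.Monic ∧ aeval (G.Y1 B) p ∈ I ∧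
      I * J = Ideal.span {aeval (G.Y1 B) p} := by
  obtain ⟨p, hp, hpI⟩ := exists_monic_aeval_mem (B := B) I (G.Y1 B)
  obtain ⟨h1, h2⟩ := projective_of_finite_projective_quotient I G.diag1
  have := invertible_of_projective I hpI (G.monic_Y1_mem_nonZeroDivisors B hp)
  obtain ⟨J, -, hJ⟩ := exists_mul_eq_span I hpI
  exact ⟨p, J, hp, hpI, hJ⟩

/-- On the overlap an ideal of `U0` with a cofactor divides a regular function coprime to `y`. -/
lemma exists_coprime1 {I J : Ideal (G.R0 B)} {p : B[X]} (hp : p.Monic)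
    (hJ : I * J = Ideal.span {aeval (G.X0 B) p}) :
    ∃ (u : G.R1 B) (L : Ideal (G.R01 B)), IsCoprime (G.Y1 B) u ∧ G.UReg1 u ∧
      I.map (G.ρ0 B) * L = Ideal.span {G.ρ1 B u} := by
  obtain ⟨u, hu, hreg, d, hd⟩ := G.exists_reverse_ureg1 hp
  refine ⟨u, J.map (G.ρ0 B), hu, hreg, ?_⟩
  rw [← Ideal.map_mul, hJ, Ideal.map_span, Set.image_singleton, ← hd,
    Ideal.span_singleton_mul_right_unit ((G.xUnit B).isUnit.pow d)]

/-- On the overlap an ideal of `U1` with a cofactor divides a regular function coprime to `x`. -/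
lemma exists_coprime0 {I J : Ideal (G.R1 B)} {p : B[X]} (hp : p.Monic)
    (hJ : I * J = Ideal.span {aeval (G.Y1 B) p}) :
    ∃ (u : G.R0 B) (L : Ideal (G.R01 B)), IsCoprime (G.X0 B) u ∧ G.UReg0 u ∧
      I.map (G.ρ1 B) * L = Ideal.span {G.ρ0 B u} := by
  obtain ⟨u, hu, hreg, d, hd⟩ := G.exists_reverse_ureg0 hp
  refine ⟨u, J.map (G.ρ1 B), hu, hreg, ?_⟩
  rw [← Ideal.map_mul, hJ, Ideal.map_span, Set.image_singleton, ← hd,
    Ideal.span_singleton_mul_right_unit ((G.xUnit B)⁻¹.isUnit.pow d)]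

/-- The divisor of a closed subscheme of `U0` which is finite locally free over the base. -/
def ofFinite0 (I : Ideal (G.R0 B)) [Module.Finite B (G.R0 B ⧸ I)]
    [Module.Projective B (G.R0 B ⧸ I)] : Div G B where
  I0 := I
  I1 := (I.map (G.ρ0 B)).comap (G.ρ1 B)
  compat := ((G.isChartMap1 B).map_comap _).symm
  cofactor0 :=
    let ⟨p, J, hp, _, hJ⟩ := exists_cofactor0 I
    ⟨_, J, CurveCharts.monic_ureg0 hp, hJ⟩
  cofactor1 := by
    obtain ⟨p, J, hp, -, hJ⟩ := exists_cofactor0 I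
    obtain ⟨u, L, hu, hreg, hL⟩ := exists_coprime1 hp hJ
    exact ⟨u, L.comap (G.ρ1 B), hreg, (comap_mul_comap (G.ρ1 B : G.R1 B →+* G.R01 B) (G.Y1 B)
      ((G.xUnit B)⁻¹.isUnit) (G.ρ1_injective B) G.exists_ρ1_eq _ L hu hL).1⟩

/-- The divisor of a closed subscheme of `U1` which is finite locally free over the base. -/
def ofFinite1 (I : Ideal (G.R1 B)) [Module.Finite B (G.R1 B ⧸ I)]
    [Module.Projective B (G.R1 B ⧸ I)] : Div G B where
  I0 := (I.map (G.ρ1 B)).comap (G.ρ0 B)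
  I1 := I
  compat := (G.isChartMap0 B).map_comap _
  cofactor0 := by
    obtain ⟨p, J, hp, -, hJ⟩ := exists_cofactor1 I
    obtain ⟨u, L, hu, hreg, hL⟩ := exists_coprime0 hp hJ
    exact ⟨u, L.comap (G.ρ0 B), hreg, (comap_mul_comap (G.ρ0 B : G.R0 B →+* G.R01 B) (G.X0 B)
      (G.xUnit B).isUnit (G.ρ0_injective B) G.exists_ρ0_eq _ L hu hL).1⟩
  cofactor1 :=
    let ⟨p, J, hp, _, hJ⟩ := exists_cofactor1 I
    ⟨_, J, CurveCharts.monic_ureg1 hp, hJ⟩

/-- The ideal on `U1` of a subscheme of `U0` is contracted from the overlap. -/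
lemma ofFinite0_I1 (I : Ideal (G.R0 B)) [Module.Finite B (G.R0 B ⧸ I)]
    [Module.Projective B (G.R0 B ⧸ I)] :
    (ofFinite0 I).I1 = (I.map (G.ρ0 B)).comap (G.ρ1 B) := rfl

/-- The ideal on `U0` of a subscheme of `U1` is contracted from the overlap. -/
lemma ofFinite1_I0 (I : Ideal (G.R1 B)) [Module.Finite B (G.R1 B ⧸ I)]
    [Module.Projective B (G.R1 B ⧸ I)] :
    (ofFinite1 I).I0 = (I.map (G.ρ1 B)).comap (G.ρ0 B) := rfl

/-- A divisor with ideal `I` on `U0` which contains a function coprime to `y` on `U1` is the divisor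
of the subscheme `I`. -/
lemma eq_ofFinite0 (E : Div G B) (I : Ideal (G.R0 B)) [Module.Finite B (G.R0 B ⧸ I)]
    [Module.Projective B (G.R0 B ⧸ I)] (h0 : E.I0 = I)
    {q : G.R1 B} (hq : IsCoprime (G.Y1 B) q) (hqE : q ∈ E.I1) : E = ofFinite0 I := by
  refine ext' h0 (le_antisymm ?_ fun a ha ↦ ?_)
  · rw [ofFinite0_I1, ← h0, E.compat]
    exact Ideal.le_comap_map
  · refine (G.isChartMap1 B).mem_of_map_mem hq ?_ (Ideal.mul_mem_right _ _ hqE)
    have : G.ρ1 B a ∈ I.map (G.ρ0 B) := ha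
    rw [← h0, E.compat] at this
    exact this

/-- A divisor with ideal `I` on `U1` which contains a function coprime to `x` on `U0` is the divisor
of the subscheme `I`. -/
lemma eq_ofFinite1 (E : Div G B) (I : Ideal (G.R1 B)) [Module.Finite B (G.R1 B ⧸ I)]
    [Module.Projective B (G.R1 B ⧸ I)] (h1 : E.I1 = I)
    {q : G.R0 B} (hq : IsCoprime (G.X0 B) q) (hqE : q ∈ E.I0) : E = ofFinite1 I := by
  refine ext' (le_antisymm ?_ fun a ha ↦ ?_) h1
  · rw [ofFinite1_I0, ← h1, ← E.compat]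
    exact Ideal.le_comap_map
  · refine (G.isChartMap0 B).mem_of_map_mem hq ?_ (Ideal.mul_mem_right _ _ hqE)
    have : G.ρ0 B a ∈ I.map (G.ρ1 B) := ha
    rw [← h1, ← E.compat] at this
    exact this

/-- The divisor of a subscheme of `U0` does not meet the zero locus of the inverse coordinate. -/
lemma exists_coprime_mem_ofFinite0 (I : Ideal (G.R0 B)) [Module.Finite B (G.R0 B ⧸ I)]
    [Module.Projective B (G.R0 B ⧸ I)] :
    ∃ q : G.R1 B, IsCoprime (G.Y1 B) q ∧ q ∈ (ofFinite0 I).I1 := by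
  obtain ⟨p, J, hp, -, hJ⟩ := exists_cofactor0 I
  obtain ⟨u, L, hu, -, hL⟩ := exists_coprime1 hp hJ
  refine ⟨u, hu, ?_⟩
  rw [ofFinite0_I1, Ideal.mem_comap]
  exact (Ideal.mul_le_inf (hL.ge (Ideal.mem_span_singleton_self _))).1

/-- The divisor of a subscheme of `U1` does not meet the zero locus of the coordinate. -/
lemma exists_coprime_mem_ofFinite1 (I : Ideal (G.R1 B)) [Module.Finite B (G.R1 B ⧸ I)]
    [Module.Projective B (G.R1 B ⧸ I)] :
    ∃ q : G.R0 B, IsCoprime (G.X0 B) q ∧ q ∈ (ofFinite1 I).I0 := by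
  obtain ⟨p, J, hp, -, hJ⟩ := exists_cofactor1 I
  obtain ⟨u, L, hu, -, hL⟩ := exists_coprime0 hp hJ
  refine ⟨u, hu, ?_⟩
  rw [ofFinite1_I0, Ideal.mem_comap]
  exact (Ideal.mul_le_inf (hL.ge (Ideal.mem_span_singleton_self _))).1

/-- Base change of the divisor of a subscheme of `U0`. -/
lemma map_ofFinite0 (φ : B →ₐ[k] B') (I : Ideal (G.R0 B)) [Module.Finite B (G.R0 B ⧸ I)]
    [Module.Projective B (G.R0 B ⧸ I)] (I' : Ideal (G.R0 B')) (h : I.map (G.bc0 φ) = I')
    [Module.Finite B' (G.R0 B' ⧸ I')] [Module.Projective B' (G.R0 B' ⧸ I')] :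
    (ofFinite0 I).map φ = ofFinite0 I' := by
  obtain ⟨q, hq, hqI⟩ := exists_coprime_mem_ofFinite0 I
  refine eq_ofFinite0 _ _ h (q := G.bc1 φ q) ?_ (Ideal.mem_map_of_mem _ hqI)
  have := hq.map (G.bc1 φ).toRingHom
  rw [← G.bc1_Y1 φ]
  exact this

/-- Base change of the divisor of a subscheme of `U1`. -/
lemma map_ofFinite1 (φ : B →ₐ[k] B') (I : Ideal (G.R1 B)) [Module.Finite B (G.R1 B ⧸ I)]
    [Module.Projective B (G.R1 B ⧸ I)] (I' : Ideal (G.R1 B')) (h : I.map (G.bc1 φ) = I')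
    [Module.Finite B' (G.R1 B' ⧸ I')] [Module.Projective B' (G.R1 B' ⧸ I')] :
    (ofFinite1 I).map φ = ofFinite1 I' := by
  obtain ⟨q, hq, hqI⟩ := exists_coprime_mem_ofFinite1 I
  refine eq_ofFinite1 _ _ h (q := G.bc0 φ q) ?_ (Ideal.mem_map_of_mem _ hqI)
  have := hq.map (G.bc0 φ).toRingHom
  rw [← G.bc0_X0 φ]
  exact this

end Div

end

end Fermat.PIC
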