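import Fermat.Agent.PIC.Ops.BCBasic
import Mathlib

/-!
# Twisting down by divisors: base change, isomorphisms, composition

`BC.sub` and `Equiv.sub` give compatibility with twisting down, and `subSub` composes two twists.
-/

set_option autoImplicit false

universe u

namespace Fermat.PIC

noncomputable section

variable {k : Type u} [Field k] {G : CurveCharts k} {B B' : Type u} [CommRing B] [CommRing B']
  [Algebra k B] [Algebra k B']

/-- The ideal on the overlap commutes with base change. -/
lemma Div.map_I01 (φ : B →ₐ[k] B') (E : Div G B) :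
    E.I01.map (G.bc01 φ : G.R01 B →+* G.R01 B') = (E.map φ).I01 := by
  change (E.I0.map (G.ρ0 B : G.R0 B →+* G.R01 B)).map (G.bc01 φ : G.R01 B →+* G.R01 B') =
    (E.I0.map (G.bc0 φ : G.R0 B →+* G.R0 B')).map (G.ρ0 B' : G.R0 B' →+* G.R01 B')
  rw [Ideal.map_map, Ideal.map_map]
  congr 1
  exact RingHom.ext fun a ↦ (G.ρ0_bc0 φ a).symm

/-- Linear isomorphisms preserve multiples by an ideal. -/
lemma map_smulTop {R P P' : Type*} [CommRing R] [AddCommGroup P] [AddCommGroup P'] [Module R P]
    [Module R P'] (e : P ≃ₗ[R] P') (I : Ideal R) :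
    (smulTop I P).map (e : P →ₗ[R] P') = smulTop I P' := by
  rw [Submodule.map_smul'', Submodule.map_top, LinearEquiv.range]

/-- Multiples of multiples are the multiples by the product. -/
lemma map_subtype_smulTop {R P : Type*} [CommRing R] [AddCommGroup P] [Module R P] (I J : Ideal R) :
    (smulTop J (smulTop I P)).map (smulTop I P).subtype = smulTop (I * J) P := by
  rw [Submodule.map_smul'', Submodule.map_top, Submodule.range_subtype, ← Submodule.mul_smul,
    mul_comm]

namespace Datum

/-- Base change commutes with twisting down by a divisor. -/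
def BC.sub {φ : B →ₐ[k] B'} {D : Datum G B} {D' : Datum G B'} (c : BC φ D D') (E : Div G B) :
    BC φ (D.sub E) (D'.sub (E.map φ)) where
  f0 := smulTopMap (G.bc0 φ : G.R0 B →+* G.R0 B') c.f0 c.smul0 (I := E.I0) (J := (E.map φ).I0)
    le_rfl
  f1 := smulTopMap (G.bc1 φ : G.R1 B →+* G.R1 B') c.f1 c.smul1 (I := E.I1) (J := (E.map φ).I1)
    le_rfl
  f01 := smulTopMap (G.bc01 φ : G.R01 B →+* G.R01 B') c.f01 c.smul01 (Div.map_I01 φ E).le
  smul0 a p := Subtype.ext (c.smul0 a p.1)
  smul1 a p := Subtype.ext (c.smul1 a p.1)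
  smul01 a p := Subtype.ext (c.smul01 a p.1)
  comm0 p := Subtype.ext (c.comm0 p.1)
  comm1 p := Subtype.ext (c.comm1 p.1)
  span0 := span_smulTopMap_eq_top _ _ c.smul0 c.span0 rfl
  span1 := span_smulTopMap_eq_top _ _ c.smul1 c.span1 rfl
  span01 := span_smulTopMap_eq_top _ _ c.smul01 c.span01 (Div.map_I01 φ E)

/-- Twisting down respects isomorphisms. -/
def Equiv.sub {D D' : Datum G B} (e : Equiv D D') (E : Div G B) : Equiv (D.sub E) (D'.sub E) where
  e0 := e.e0.ofSubmodules _ _ (map_smulTop e.e0 E.I0)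
  e1 := e.e1.ofSubmodules _ _ (map_smulTop e.e1 E.I1)
  e01 := e.e01.ofSubmodules _ _ (map_smulTop e.e01 E.I01)
  comm0 p := Subtype.ext (e.comm0 p.1)
  comm1 p := Subtype.ext (e.comm1 p.1)

/-- Congruence in the divisor. -/
def subCongr (D : Datum G B) {E F : Div G B} (h : E = F) : Equiv (D.sub E) (D.sub F) :=
  h ▸ Equiv.refl _

/-- Twisting down by the empty divisor. -/
def subOne (D : Datum G B) : Equiv (D.sub 1) D where
  e0 := LinearEquiv.ofTop _ (by rw [Div.one_I0]; exact Submodule.top_smul _)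
  e1 := LinearEquiv.ofTop _ (by rw [Div.one_I1]; exact Submodule.top_smul _)
  e01 := LinearEquiv.ofTop _ (by
    rw [show (1 : Div G B).I01 = ⊤ from Ideal.map_top _]; exact Submodule.top_smul _)
  comm0 _ := rfl
  comm1 _ := rfl

/-- A sum of divisors is the product of ideals on the overlap. -/
lemma _root_.Fermat.PIC.Div.mul_I01 (E F : Div G B) : (E * F).I01 = E.I01 * F.I01 :=
  Ideal.map_mul _ _ _

/-- Twisting down twice. -/
def subSub (D : Datum G B) (E F : Div G B) : Equiv ((D.sub E).sub F) (D.sub (E * F)) where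
  e0 := (Submodule.equivSubtypeMap _ _).trans
    (LinearEquiv.ofEq _ _ (map_subtype_smulTop E.I0 F.I0))
  e1 := (Submodule.equivSubtypeMap _ _).trans
    (LinearEquiv.ofEq _ _ (map_subtype_smulTop E.I1 F.I1))
  e01 := (Submodule.equivSubtypeMap _ _).trans
    (LinearEquiv.ofEq _ _ ((map_subtype_smulTop E.I01 F.I01).trans (by rw [Div.mul_I01])))
  comm0 _ := rfl
  comm1 _ := rfl

end Datum

end

end Fermat.PIC
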