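import Mathlib

/-!
# Restriction to the overlap of two charts: extended ideals and their contraction

`IsChartMap` is a map inverting the coordinate; ideals of the overlap are extended from their
contractions (`map_comap`).
-/

set_option autoImplicit false

open Polynomial

namespace Fermat.PIC

noncomputable section

/-- A ring map which inverts the coordinate and nothing else. -/
structure IsChartMap {R S : Type*} [CommRing R] [CommRing S] (ρ : R →+* S) (x : R) (u : Sˣ) :
    Prop where
  /-- `ρ` is injective. -/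
  inj : Function.Injective ρ
  /-- `ρ` sends the coordinate to the unit. -/
  map_coord : ρ x = u
  /-- Every element times a power of the unit comes from `R`. -/
  surj : ∀ s : S, ∃ (n : ℕ) (r : R), ρ r = (u : S) ^ n * s

/-- Membership is tested after multiplying by two coprime elements. -/
lemma mem_of_isCoprime_smul {R P : Type*} [CommRing R] [AddCommGroup P] [Module R P]
    (N : Submodule R P) {a b : R} (h : IsCoprime a b) {p : P} (ha : a • p ∈ N) (hb : b • p ∈ N) :
    p ∈ N := by
  obtain ⟨c, d, hcd⟩ := h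
  have := N.add_mem (N.smul_mem c ha) (N.smul_mem d hb)
  rwa [← mul_smul, ← mul_smul, ← add_smul, hcd, one_smul] at this

namespace IsChartMap

variable {R S : Type*} [CommRing R] [CommRing S] {ρ : R →+* S} {x : R} {u : Sˣ}
  (hρ : IsChartMap ρ x u)

include hρ

/-- Powers of the coordinate become powers of the unit. -/
lemma map_pow_coord (n : ℕ) : ρ (x ^ n) = (u : S) ^ n := by rw [map_pow, hρ.map_coord]

/-- Nonzerodivisors stay so on the overlap. -/
lemma regular_map {p : R} (hp : p ∈ nonZeroDivisors R) : ρ p ∈ nonZeroDivisors S := by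
  rw [mem_nonZeroDivisors_iff_right] at hp ⊢
  intro s hs
  obtain ⟨n, r, hr⟩ := hρ.surj s
  have : r = 0 := hp r (hρ.inj (by rw [map_mul, hr, mul_assoc, hs, mul_zero, map_zero]))
  rw [this, map_zero] at hr
  exact ((u ^ n).isUnit.mul_right_eq_zero).mp (by simpa using hr.symm)

/-- An element regular on the overlap is regular on the chart. -/
lemma regular_of_map {p : R} (hp : ρ p ∈ nonZeroDivisors S) : p ∈ nonZeroDivisors R := by
  rw [mem_nonZeroDivisors_iff_right] at hp ⊢
  exact fun r hr ↦ hρ.inj (by rw [hp (ρ r) (by rw [← map_mul, hr, map_zero]), map_zero])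

/-- An ideal of the overlap is generated by its contraction. -/
lemma map_comap (K : Ideal S) : (K.comap ρ).map ρ = K := by
  refine le_antisymm Ideal.map_comap_le fun s hs ↦ ?_
  obtain ⟨n, r, hr⟩ := hρ.surj s
  have hmem : ρ r ∈ (K.comap ρ).map ρ :=
    Ideal.mem_map_of_mem _ (Ideal.mem_comap.mpr (hr ▸ K.mul_mem_left _ hs))
  have := Ideal.mul_mem_left _ (↑(u ^ n)⁻¹ : S) hmem
  rwa [hr, ← mul_assoc, ← Units.val_pow_eq_pow_val, Units.inv_mul, one_mul] at this

/-- An element of an extended ideal comes from the ideal after a power of the unit. -/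
lemma exists_pow_mul_mem {I : Ideal R} {s : S} (hs : s ∈ I.map ρ) :
    ∃ n : ℕ, ∃ r ∈ I, ρ r = (u : S) ^ n * s := by
  induction hs using Submodule.span_induction with
  | mem s hs =>
    obtain ⟨r, hr, rfl⟩ := hs
    exact ⟨0, r, hr, by simp⟩
  | zero => exact ⟨0, 0, zero_mem _, by simp⟩
  | add s t _ _ hs ht =>
    obtain ⟨n, r, hr, hrs⟩ := hs
    obtain ⟨m, r', hr', hrt⟩ := ht
    refine ⟨n + m, x ^ m * r + x ^ n * r', add_mem (I.mul_mem_left _ hr) (I.mul_mem_left _ hr'), ?_⟩
    rw [map_add, map_mul, map_mul, hrs, hrt, hρ.map_pow_coord, hρ.map_pow_coord]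
    ring
  | smul a s _ hs =>
    obtain ⟨n, r, hr, hrs⟩ := hs
    obtain ⟨m, c, hc⟩ := hρ.surj a
    refine ⟨m + n, c * r, I.mul_mem_left _ hr, ?_⟩
    rw [map_mul, hc, hrs, smul_eq_mul]
    ring

/-- An element whose image lies in the extended ideal lies in the ideal if a multiple of it by
something coprime to the coordinate does. -/
lemma mem_of_map_mem {I : Ideal R} {q : R} (hco : IsCoprime x q) {a : R}
    (ha : ρ a ∈ I.map ρ) (hq : q * a ∈ I) : a ∈ I := by
  obtain ⟨n, r, hr, hra⟩ := hρ.exists_pow_mul_mem ha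
  have : x ^ n * a = r := hρ.inj (by rw [map_mul, hρ.map_pow_coord, hra])
  exact mem_of_isCoprime_smul I (hco.pow_left (m := n)) (show x ^ n * a ∈ I by rwa [this]) hq

end IsChartMap

section Other

variable {B R R' S : Type*} [CommRing B] [CommRing R] [CommRing R'] [CommRing S] [Algebra B R]
  [Algebra B R'] [Algebra B S] {ρ : R →ₐ[B] S} {ρ' : R' →ₐ[B] S} {x : R} {y : R'} {u : Sˣ}
  (hρ : IsChartMap ρ.toRingHom x u) (hρ' : IsChartMap ρ'.toRingHom y u⁻¹)

include hρ hρ'

/-- Reversing a monic polynomial. -/
lemma exists_reverse (p : B[X]) (hp : p.Monic) :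
    ∃ q : R', IsCoprime y q ∧ ρ' q * (u : S) ^ p.natDegree = ρ (aeval x p) := by
  refine ⟨aeval y p.reverse, ?_, ?_⟩
  · refine ⟨-aeval y p.reverse.divX, 1, ?_⟩
    have h0 : p.reverse.coeff 0 = 1 := by rw [Polynomial.coeff_zero_reverse, hp.leadingCoeff]
    have := congrArg (aeval y) (Polynomial.X_mul_divX_add p.reverse)
    rw [map_add, map_mul, aeval_X, h0, map_one, map_one] at this
    linear_combination -this
  · have hy : ρ' y = ↑u⁻¹ := hρ'.map_coord
    have hx : ρ x = ↑u := hρ.map_coord
    rw [← aeval_algHom_apply, ← aeval_algHom_apply, hy, hx]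
    let : Invertible (u : S) := u.invertible
    have := Polynomial.eval₂_reverse_mul_pow (algebraMap B S) (u : S) p
    rwa [invOf_units] at this

end Other

end

end Fermat.PIC
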