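import Mathlib

/-!
# Semilinear maps of invertible modules with spanning image

`exists_semilinear_lift`: such a map is universal among semilinear maps.
-/

set_option autoImplicit false

open scoped TensorProduct

namespace Fermat.PIC

noncomputable section

variable {R : Type*} [CommRing R] {R' : Type*} [CommRing R'] (φ : R →+* R')
  {P P' Q : Type*} [AddCommGroup P] [AddCommGroup P'] [AddCommGroup Q] [Module R P] [Module R' P']
  [Module R' Q] (f : P →+ P')

/-- A semilinear map of invertible modules with spanning image is universal. -/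
theorem exists_semilinear_lift [Module.Invertible R P] [Module.Invertible R' P']
    (hf : ∀ (a : R) p, f (a • p) = φ a • f p)
    (hspan : Submodule.span R' (Set.range f) = ⊤)
    (g : P →+ Q) (hg : ∀ (a : R) p, g (a • p) = φ a • g p) :
    ∃ g' : P' →ₗ[R'] Q, ∀ p, g' (f p) = g p := by
  let := φ.toAlgebra
  let := Module.compHom P' φ
  let := Module.compHom Q φ
  have : IsScalarTower R R' P' := IsScalarTower.of_algebraMap_smul fun _ _ ↦ rfl
  have : IsScalarTower R R' Q := IsScalarTower.of_algebraMap_smul fun _ _ ↦ rfl
  let fl : P →ₗ[R] P' := { toFun := f, map_add' := map_add f, map_smul' := hf }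
  let gl : P →ₗ[R] Q := { toFun := g, map_add' := map_add g, map_smul' := hg }
  have hbij : Function.Bijective (fl.liftBaseChange R') := by
    refine Module.Invertible.bijective_of_surjective (LinearMap.range_eq_top.mp ?_)
    rw [eq_top_iff, ← hspan, Submodule.span_le]
    rintro _ ⟨p, rfl⟩
    exact ⟨1 ⊗ₜ p, by simp [fl]⟩
  refine ⟨gl.liftBaseChange R' ∘ₗ (LinearEquiv.ofBijective _ hbij).symm.toLinearMap, fun p ↦ ?_⟩
  have : (LinearEquiv.ofBijective _ hbij).symm (f p) = 1 ⊗ₜ p := by
    rw [LinearEquiv.symm_apply_eq]
    simp [fl]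
  simp [this, gl]

end

end Fermat.PIC
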