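import Fermat.Agent.PIC.Ops.Dual
import Mathlib

/-!
# Projectivity of ideals with finite projective quotient

An ideal of a base changed smooth curve chart with finite projective quotient over the base is
projective, by the resolution of the diagonal.
-/

set_option autoImplicit false

universe u

open scoped TensorProduct

namespace Fermat.PIC

noncomputable section

variable {k : Type u} [Field k] {A : Type u} [CommRing A] [Algebra k A] {B : Type u} [CommRing B]
  [Algebra k B] (I : Ideal (B ⊗[k] A))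

/-- Multiplication on the left factor. -/
def diagL : A →+* Module.End (B ⊗[k] A) ((B ⊗[k] A) ⊗[B] ((B ⊗[k] A) ⧸ I)) :=
  (algebraMap (B ⊗[k] A) _).comp
    (Algebra.TensorProduct.includeRight : A →ₐ[k] B ⊗[k] A).toRingHom

/-- Multiplication on the right factor. -/
def diagR : A →+* Module.End (B ⊗[k] A) ((B ⊗[k] A) ⊗[B] ((B ⊗[k] A) ⧸ I)) :=
  (Module.End.baseChangeHom B (B ⊗[k] A) ((B ⊗[k] A) ⧸ I)).toRingHom.comp
    ((Algebra.lsmul B B ((B ⊗[k] A) ⧸ I) (A := B ⊗[k] A)).toRingHom.comp
      (Algebra.TensorProduct.includeRight : A →ₐ[k] B ⊗[k] A).toRingHom)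

/-- The left action is multiplication. -/
lemma diagL_apply (a : A) (w : (B ⊗[k] A) ⊗[B] ((B ⊗[k] A) ⧸ I)) :
    diagL I a w = ((1 : B) ⊗ₜ[k] a : B ⊗[k] A) • w := rfl

/-- The right action acts on the quotient factor. -/
lemma diagR_apply (a : A) (r : B ⊗[k] A) (q : (B ⊗[k] A) ⧸ I) :
    diagR I a (r ⊗ₜ[B] q) = r ⊗ₜ[B] (((1 : B) ⊗ₜ[k] a : B ⊗[k] A) • q) := rfl

/-- The left action extends the action of `k`. -/
lemma diagL_algebraMap (c : k) :
    diagL I (algebraMap k A c) = algebraMap k _ c := by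
  refine LinearMap.ext fun w ↦ ?_
  rw [diagL_apply, Module.algebraMap_end_apply, ← algebraMap_smul (B ⊗[k] A) c]
  congr 1
  rw [Algebra.TensorProduct.algebraMap_apply, Algebra.algebraMap_eq_smul_one,
    Algebra.algebraMap_eq_smul_one, TensorProduct.tmul_smul, TensorProduct.smul_tmul']

/-- The right action extends the action of `k`. -/
lemma diagR_algebraMap (c : k) :
    diagR I (algebraMap k A c) = algebraMap k _ c := by
  refine LinearMap.ext fun w ↦ ?_
  induction w using TensorProduct.induction_on with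
  | zero => simp
  | add v w hv hw => rw [map_add, map_add, hv, hw]
  | tmul r q =>
    rw [diagR_apply, Module.algebraMap_end_apply, TensorProduct.smul_tmul',
      show ((1 : B) ⊗ₜ[k] algebraMap k A c : B ⊗[k] A) = algebraMap B _ (algebraMap k B c) by
        rw [Algebra.TensorProduct.algebraMap_apply, Algebra.algebraMap_eq_smul_one,
          Algebra.algebraMap_eq_smul_one, TensorProduct.tmul_smul, TensorProduct.smul_tmul',
          algebraMap_smul],
      algebraMap_smul, ← TensorProduct.smul_tmul, algebraMap_smul]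

/-- The two actions of the chart, as one action of its square. -/
def diagAct :
    A ⊗[k] A →ₐ[k] Module.End (B ⊗[k] A) ((B ⊗[k] A) ⊗[B] ((B ⊗[k] A) ⧸ I)) :=
  Algebra.TensorProduct.lift
    { diagL I with commutes' := diagL_algebraMap I }
    { diagR I with commutes' := diagR_algebraMap I }
    fun a b ↦ show Commute (algebraMap (B ⊗[k] A) _ ((1 : B) ⊗ₜ[k] a)) (diagR I b) from
      Algebra.commutes _ _

/-- The action of a pure tensor. -/
lemma diagAct_tmul (a b : A) (r : B ⊗[k] A) (q : (B ⊗[k] A) ⧸ I) :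
    diagAct I (a ⊗ₜ b) (r ⊗ₜ[B] q) =
      (((1 : B) ⊗ₜ[k] a : B ⊗[k] A) * r) ⊗ₜ[B] (((1 : B) ⊗ₜ[k] b : B ⊗[k] A) • q) := by
  simp only [diagAct, Algebra.TensorProduct.lift_tmul, Module.End.mul_apply]
  change diagL I a (diagR I b (r ⊗ₜ[B] q)) = _
  rw [diagR_apply, diagL_apply, TensorProduct.smul_tmul', smul_eq_mul]

/-- The multiplication map `(B ⊗ A) ⊗ ((B ⊗ A) ⧸ I) → (B ⊗ A) ⧸ I`. -/
def diagMul : (B ⊗[k] A) ⊗[B] ((B ⊗[k] A) ⧸ I) →ₗ[B ⊗[k] A] (B ⊗[k] A) ⧸ I :=
  (LinearMap.id : ((B ⊗[k] A) ⧸ I) →ₗ[B] _).liftBaseChange (B ⊗[k] A)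

/-- Multiplication on a pure tensor. -/
lemma diagMul_tmul (r : B ⊗[k] A) (q : (B ⊗[k] A) ⧸ I) : diagMul I (r ⊗ₜ[B] q) = r • q := by
  simp [diagMul]

/-- Multiplication after the diagonal action is the action through multiplication. -/
lemma diagMul_diagAct (t : A ⊗[k] A) (w : (B ⊗[k] A) ⊗[B] ((B ⊗[k] A) ⧸ I)) :
    diagMul I (diagAct I t w) =
      ((1 : B) ⊗ₜ[k] Algebra.TensorProduct.lmul' k t : B ⊗[k] A) • diagMul I w := by
  induction w using TensorProduct.induction_on with
  | zero => simp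
  | add v w hv hw => simp only [map_add, hv, hw, smul_add]
  | tmul r q =>
    induction t using TensorProduct.induction_on with
    | zero => simp
    | add v w hv hw =>
      simp only [map_add, LinearMap.add_apply, hv, hw, TensorProduct.tmul_add, add_smul]
    | tmul a b =>
      rw [diagAct_tmul, diagMul_tmul, diagMul_tmul, ← mul_smul, ← mul_smul,
        Algebra.TensorProduct.lmul'_apply_tmul]
      congr 1
      rw [mul_right_comm, Algebra.TensorProduct.tmul_mul_tmul, one_mul]

/-- `a ↦ a ⊗ 1 - 1 ⊗ a`, valued in the ideal of the diagonal. -/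
private def diagDiff : A →ₗ[k] KaehlerDifferential.ideal k A where
  toFun a := ⟨a ⊗ₜ 1 - 1 ⊗ₜ a, by simp⟩
  map_add' a b := Subtype.ext (by
    simp only [Submodule.coe_add, TensorProduct.add_tmul, TensorProduct.tmul_add]
    abel)
  map_smul' c a := Subtype.ext (by
    simp [TensorProduct.smul_tmul', smul_sub])

/-- The Leibniz rule for `diagDiff`. -/
private lemma diagDiff_mul (c a : A) : diagDiff (k := k) (c * a) =
    ((c ⊗ₜ 1 : A ⊗[k] A)) • diagDiff a + ((1 ⊗ₜ a : A ⊗[k] A)) • diagDiff c := by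
  refine Subtype.ext ?_
  simp only [diagDiff, LinearMap.coe_mk, AddHom.coe_mk, Submodule.coe_add, Submodule.coe_smul,
    smul_eq_mul, mul_sub, Algebra.TensorProduct.tmul_mul_tmul, one_mul, mul_one]
  rw [mul_comm a c]
  abel

/-- The operator `(b ⊗ a) ⊗ q ↦ b • g a • (1 ⊗ q)`. -/
private def diagShift (g : A →ₗ[k] A ⊗[k] A) :
    (B ⊗[k] A) ⊗[B] ((B ⊗[k] A) ⧸ I) →ₗ[B] (B ⊗[k] A) ⊗[B] ((B ⊗[k] A) ⧸ I) :=
  TensorProduct.lift (LinearMap.mk₂ B
    (fun (r : B ⊗[k] A) (q : (B ⊗[k] A) ⧸ I) ↦
      ((diagAct I).toLinearMap ∘ₗ g).liftBaseChange B r ((1 : B ⊗[k] A) ⊗ₜ[B] q))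
    (fun r r' q ↦ by simp only [map_add, LinearMap.add_apply])
    (fun c r q ↦ by simp only [map_smul, LinearMap.smul_apply])
    (fun r q q' ↦ by simp only [TensorProduct.tmul_add, map_add])
    (fun c r q ↦ by simp only [TensorProduct.tmul_smul, LinearMap.map_smul_of_tower]))

/-- The value of `diagShift` on a pure tensor. -/
private lemma diagShift_tmul (g : A →ₗ[k] A ⊗[k] A) (b : B) (a : A) (q : (B ⊗[k] A) ⧸ I) :
    diagShift I g ((b ⊗ₜ[k] a : B ⊗[k] A) ⊗ₜ[B] q) =
      b • diagAct I (g a) ((1 : B ⊗[k] A) ⊗ₜ[B] q) := rfl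

/-- Moving a scalar of `B` out of the right factor. -/
private lemma one_tmul_tmul_smul (b : B) (a : A) (q : (B ⊗[k] A) ⧸ I) :
    (1 : B ⊗[k] A) ⊗ₜ[B] ((b ⊗ₜ[k] a : B ⊗[k] A) • q) =
      b • ((1 : B ⊗[k] A) ⊗ₜ[B] (((1 : B) ⊗ₜ[k] a : B ⊗[k] A) • q)) := by
  rw [← TensorProduct.tmul_smul, ← smul_assoc, TensorProduct.smul_tmul', smul_eq_mul, mul_one]

/-- `diagShift` against the left action of the chart. -/
private lemma diagShift_smul {g : A →ₗ[k] A ⊗[k] A}
    (hg : ∀ c a, g (c * a) = (c ⊗ₜ 1) * g a + (1 ⊗ₜ a) * g c) (c : A)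
    (w : (B ⊗[k] A) ⊗[B] ((B ⊗[k] A) ⧸ I)) :
    diagShift I g (((1 : B) ⊗ₜ[k] c : B ⊗[k] A) • w) =
      ((1 : B) ⊗ₜ[k] c : B ⊗[k] A) • diagShift I g w +
        diagAct I (g c) ((1 : B ⊗[k] A) ⊗ₜ[B] diagMul I w) := by
  induction w using TensorProduct.induction_on with
  | zero => simp
  | add v w hv hw =>
    simp only [smul_add, map_add, TensorProduct.tmul_add, hv, hw]
    abel
  | tmul r q =>
    induction r using TensorProduct.induction_on with
    | zero => simp
    | add v w hv hw =>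
      simp only [TensorProduct.add_tmul, smul_add, map_add, TensorProduct.tmul_add, hv, hw]
      abel
    | tmul b a =>
      rw [TensorProduct.smul_tmul', smul_eq_mul, Algebra.TensorProduct.tmul_mul_tmul, one_mul,
        diagShift_tmul, diagShift_tmul, diagMul_tmul, one_tmul_tmul_smul,
        LinearMap.map_smul_of_tower, hg, map_add, LinearMap.add_apply, smul_add, map_mul, map_mul,
        Module.End.mul_apply, smul_comm ((1 : B) ⊗ₜ[k] c : B ⊗[k] A) b]
      congr 1
      · congr 1
        simp [diagAct, diagL_apply]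
      · congr 1
        rw [← map_mul, mul_comm, map_mul, Module.End.mul_apply,
          diagAct_tmul, ← Algebra.TensorProduct.one_def, one_mul]

/-- The operators `diagShift` split the inclusion of the kernel of multiplication. -/
private lemma sum_diagShift {m : ℕ} {δ : Fin m → A ⊗[k] A} {g : Fin m → A →ₗ[k] A ⊗[k] A}
    (he : ∀ a, ∑ i, δ i * g i a = a ⊗ₜ 1 - 1 ⊗ₜ a) (w : (B ⊗[k] A) ⊗[B] ((B ⊗[k] A) ⧸ I)) :
    ∑ i, diagAct I (δ i) (diagShift I (g i) w) = w - (1 : B ⊗[k] A) ⊗ₜ[B] diagMul I w := by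
  induction w using TensorProduct.induction_on with
  | zero => simp
  | add v w hv hw =>
    simp only [map_add, Finset.sum_add_distrib, hv, hw, TensorProduct.tmul_add]
    abel
  | tmul r q =>
    induction r using TensorProduct.induction_on with
    | zero => simp
    | add v w hv hw =>
      simp only [TensorProduct.add_tmul, map_add, Finset.sum_add_distrib, hv, hw,
        TensorProduct.tmul_add]
      abel
    | tmul b a =>
      have hb : ((b ⊗ₜ[k] a : B ⊗[k] A) ⊗ₜ[B] q) =
          b • (((1 : B) ⊗ₜ[k] a : B ⊗[k] A) ⊗ₜ[B] q) := by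
        rw [TensorProduct.smul_tmul', TensorProduct.smul_tmul', smul_eq_mul, mul_one]
      simp only [diagShift_tmul, LinearMap.map_smul_of_tower, ← Finset.smul_sum,
        ← Module.End.mul_apply, ← map_mul, ← LinearMap.sum_apply, ← map_sum, he]
      rw [map_sub, LinearMap.sub_apply, diagAct_tmul, diagAct_tmul, diagMul_tmul,
        one_tmul_tmul_smul, hb, smul_sub]
      simp [← Algebra.TensorProduct.one_def]

/-- The kernel of multiplication is finite projective over the chart. -/
private lemma finite_projective_ker_diagMul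
    (hdiag : Module.Invertible (A ⊗[k] A) (KaehlerDifferential.ideal k A))
    [Module.Finite B ((B ⊗[k] A) ⧸ I)] [Module.Projective B ((B ⊗[k] A) ⧸ I)] :
    Module.Finite (B ⊗[k] A) (LinearMap.ker (diagMul I)) ∧
      Module.Projective (B ⊗[k] A) (LinearMap.ker (diagMul I)) := by
  classical
  let R := B ⊗[k] A
  let W := R ⊗[B] (R ⧸ I)
  have := hdiag
  obtain ⟨m, δ, φ, hδ⟩ := exists_dual_basis (A ⊗[k] A) (KaehlerDifferential.ideal k A)
  let g : Fin m → A →ₗ[k] A ⊗[k] A := fun i ↦ (φ i).restrictScalars k ∘ₗ diagDiff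
  have hg : ∀ i c a, g i (c * a) = (c ⊗ₜ 1) * g i a + (1 ⊗ₜ a) * g i c := fun i c a ↦ by
    simp [g, diagDiff_mul, map_add, map_smul]
  have he : ∀ a, ∑ i, (δ i).1 * g i a = a ⊗ₜ 1 - 1 ⊗ₜ a := fun a ↦ by
    have := congrArg Subtype.val (hδ (diagDiff a))
    rw [Submodule.coe_sum] at this
    simp only [Submodule.coe_smul, smul_eq_mul] at this
    rw [Finset.sum_congr rfl fun i _ ↦ mul_comm (δ i).1 (g i a)]
    exact this
  let K : Submodule R W := LinearMap.ker (diagMul I)
  have hFK : ∀ i (r : R) (w : W), w ∈ K → diagShift I (g i) (r • w) = r • diagShift I (g i) w := by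
    intro i r w hw
    induction r using TensorProduct.induction_on with
    | zero => simp
    | add v z hv hz => simp only [add_smul, map_add, hv, hz]
    | tmul b c =>
      have : (b ⊗ₜ[k] c : R) = b • ((1 : B) ⊗ₜ[k] c : R) := by
        rw [TensorProduct.smul_tmul', smul_eq_mul, mul_one]
      rw [this, smul_assoc, smul_assoc, map_smul, diagShift_smul I (hg i),
        LinearMap.mem_ker.mp hw]
      simp
  -- a dual basis of the diagonal ideal splits the kernel off `W ^ m`
  let fwd : K →ₗ[R] (Fin m → W) :=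
    { toFun := fun w i ↦ diagShift I (g i) w.1
      map_add' := fun v w ↦ funext fun i ↦ map_add (diagShift I (g i)) v.1 w.1
      map_smul' := fun r w ↦ funext fun i ↦ hFK i r w.1 w.2 }
  have hmem : ∀ i (w : W), diagMul I (diagAct I (δ i).1 w) = 0 := fun i w ↦ by
    rw [diagMul_diagAct, RingHom.mem_ker.mp (δ i).2]
    simp
  let back : (Fin m → W) →ₗ[R] K :=
    ∑ i, LinearMap.codRestrict K ((diagAct I (δ i).1).comp (LinearMap.proj i)) fun w ↦ hmem i _
  have hback : back ∘ₗ fwd = LinearMap.id := by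
    refine LinearMap.ext fun w ↦ Subtype.ext ?_
    simp only [back, fwd, LinearMap.coe_comp, Function.comp_apply, LinearMap.sum_apply,
      Submodule.coe_sum, LinearMap.id_apply]
    refine (sum_diagShift I he w.1).trans ?_
    rw [LinearMap.mem_ker.mp w.2, TensorProduct.tmul_zero, sub_zero]
  have : Module.Projective R (Fin m → W) :=
    Module.Projective.of_equiv (DFinsupp.linearEquivFunOnFintype (R := R) (M := fun _ : Fin m ↦ W))
  exact ⟨Module.Finite.of_surjective back fun w ↦ ⟨fwd w, LinearMap.congr_fun hback w⟩,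
    Module.Projective.of_split fwd back hback⟩

/-- An ideal of a chart with finite projective quotient over the base is projective. -/
theorem projective_of_finite_projective_quotient
    (hdiag : Module.Invertible (A ⊗[k] A) (KaehlerDifferential.ideal k A))
    [Module.Finite B ((B ⊗[k] A) ⧸ I)] [Module.Projective B ((B ⊗[k] A) ⧸ I)] :
    Module.Finite (B ⊗[k] A) I ∧ Module.Projective (B ⊗[k] A) I := by
  let R := B ⊗[k] A
  let W := R ⊗[B] (R ⧸ I)
  let K : Submodule R W := LinearMap.ker (diagMul I)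
  obtain ⟨hKf, hKp⟩ := finite_projective_ker_diagMul I hdiag
  have : Module.Finite R K := hKf
  have : Module.Projective R K := hKp
  let mk : R →ₗ[R] R ⧸ I := Submodule.mkQ I
  obtain ⟨β, hβ⟩ := Module.projective_lifting_property mk (diagMul I) (Submodule.mkQ_surjective I)
  let α : R →ₗ[R] W := LinearMap.toSpanSingleton R W ((1 : R) ⊗ₜ[B] mk 1)
  have hα : ∀ r : R, diagMul I (α r) = mk r := fun r ↦ by
    change diagMul I (r • ((1 : R) ⊗ₜ[B] mk 1)) = mk r
    rw [map_smul, diagMul_tmul, one_smul, ← map_smul, smul_eq_mul, mul_one]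
  have hmk : ∀ x : R, x ∈ I ↔ mk x = 0 := fun x ↦ (Submodule.Quotient.mk_eq_zero I).symm
  let s : K × R →ₗ[R] I := LinearMap.codRestrict I
    (LinearMap.snd R K R - β ∘ₗ α ∘ₗ LinearMap.snd R K R +
      β ∘ₗ K.subtype ∘ₗ LinearMap.fst R K R) fun p ↦ by
    rw [hmk]
    have := fun w ↦ LinearMap.congr_fun hβ w
    simp only [LinearMap.coe_comp, Function.comp_apply] at this
    simp only [LinearMap.add_apply, LinearMap.sub_apply, LinearMap.coe_comp, Function.comp_apply,
      LinearMap.snd_apply, LinearMap.fst_apply, Submodule.coe_subtype, map_add, map_sub, this, hα,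
      LinearMap.mem_ker.mp p.1.2]
    simp
  let i : I →ₗ[R] K × R := LinearMap.prod
    (LinearMap.codRestrict K (α ∘ₗ I.subtype) fun x ↦ LinearMap.mem_ker.mpr (by
      rw [LinearMap.comp_apply, hα]; exact (hmk x.1).mp x.2))
    I.subtype
  have hsi : s ∘ₗ i = LinearMap.id := by
    refine LinearMap.ext fun x ↦ Subtype.ext ?_
    simp [s, i]
  exact ⟨Module.Finite.of_surjective s fun x ↦ ⟨i x, LinearMap.congr_fun hsi x⟩,
    Module.Projective.of_split i s hsi⟩

end

end Fermat.PIC
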