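import Fermat.Agent.PIC.Ops.ChartMap
import Fermat.Agent.PIC.Ops.Lift
import Mathlib

/-!
# Restriction of semilinear maps to multiples by ideals

`smulTopMap` is the restricted map, which still has spanning image.
-/

set_option autoImplicit false

namespace Fermat.PIC

noncomputable section

variable {R S P Q : Type*} [CommRing R] [CommRing S] [AddCommGroup P] [AddCommGroup Q]
  [Module R P] [Module S Q]

/-- The multiples of an ideal in a module. -/
abbrev smulTop (I : Ideal R) (P : Type*) [AddCommGroup P] [Module R P] : Submodule R P :=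
  I • (⊤ : Submodule R P)

/-- A semilinear map respects multiples by compatible ideals. -/
lemma map_mem_smulTop (φ : R →+* S) (f : P →+ Q) (hf : ∀ (a : R) p, f (a • p) = φ a • f p)
    {I : Ideal R} {J : Ideal S} (h : I.map φ ≤ J) {p : P} (hp : p ∈ smulTop I P) :
    f p ∈ smulTop J Q := by
  refine Submodule.smul_induction_on hp (fun a ha q _ ↦ ?_) fun p q hp hq ↦ ?_
  · rw [hf]
    exact Submodule.smul_mem_smul (h (Ideal.mem_map_of_mem φ ha)) trivial
  · rw [map_add]; exact add_mem hp hq

/-- A semilinear map restricted to multiples by ideals. -/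
def smulTopMap (φ : R →+* S) (f : P →+ Q) (hf : ∀ (a : R) p, f (a • p) = φ a • f p)
    {I : Ideal R} {J : Ideal S} (h : I.map φ ≤ J) : smulTop I P →+ smulTop J Q :=
  AddMonoidHom.mk' (fun p ↦ ⟨f p, map_mem_smulTop φ f hf h p.2⟩)
    fun p q ↦ Subtype.ext (map_add f p.1 q.1)

/-- The restricted map still has spanning image. -/
lemma span_smulTopMap_eq_top (φ : R →+* S) (f : P →+ Q)
    (hf : ∀ (a : R) p, f (a • p) = φ a • f p) (hspan : Submodule.span S (Set.range f) = ⊤)
    {I : Ideal R} {J : Ideal S} (h : I.map φ = J) :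
    Submodule.span S (Set.range (smulTopMap φ f hf h.le)) = ⊤ := by
  refine Submodule.map_injective_of_injective (f := (smulTop J Q).subtype)
    Subtype.coe_injective ?_
  rw [Submodule.map_span, Submodule.map_top, Submodule.range_subtype]
  refine le_antisymm (Submodule.span_le.mpr ?_) ?_
  · rintro _ ⟨_, ⟨p, rfl⟩, rfl⟩
    exact map_mem_smulTop φ f hf h.le p.2
  · refine Submodule.smul_le.mpr fun a ha q hq0 ↦ ?_
    clear hq0
    have hq : q ∈ Submodule.span S (Set.range f) := hspan ▸ trivial
    rw [← h, Ideal.map] at ha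
    induction ha using Submodule.span_induction with
    | mem a ha =>
      obtain ⟨c, hc, rfl⟩ := ha
      induction hq using Submodule.span_induction with
      | mem q hq =>
        obtain ⟨p, rfl⟩ := hq
        rw [← hf]
        exact Submodule.subset_span
          ⟨_, ⟨⟨c • p, Submodule.smul_mem_smul hc trivial⟩, rfl⟩, rfl⟩
      | zero => simp
      | add q q' _ _ hq hq' => rw [smul_add]; exact add_mem hq hq'
      | smul s q _ hq => rw [smul_comm]; exact Submodule.smul_mem _ s hq
    | zero => simp
    | add a b _ _ ha hb => rw [add_smul]; exact add_mem ha hb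
    | smul s a _ ha => rw [smul_eq_mul, mul_smul]; exact Submodule.smul_mem _ s ha

section Surj

variable {ρ : R →+* S} {x : R} {u : Sˣ} (hρ : IsChartMap ρ x u)

include hρ

/-- A multiple by the ideal comes, after a power of the unit, from one upstairs. -/
lemma exists_pow_smul_mem_smulTop (r : P →+ Q) (hr : ∀ (a : R) p, r (a • p) = ρ a • r p)
    (hsurj : ∀ z, ∃ (n : ℕ) (p : P), r p = ((u : S) ^ n) • z) {I : Ideal R} {z : Q}
    (hz : z ∈ smulTop (I.map ρ) Q) :
    ∃ (n : ℕ), ∃ p ∈ smulTop I P, r p = ((u : S) ^ n) • z := by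
  refine Submodule.smul_induction_on hz (fun a ha q _ ↦ ?_) fun z w hz hw ↦ ?_
  · obtain ⟨m, c, hc, hca⟩ := hρ.exists_pow_mul_mem ha
    obtain ⟨n, p, hp⟩ := hsurj q
    refine ⟨m + n, c • p, Submodule.smul_mem_smul hc trivial, ?_⟩
    rw [hr, hca, hp, ← mul_smul, ← mul_smul]
    congr 1
    ring
  · obtain ⟨n, p, hp, hpz⟩ := hz
    obtain ⟨m, q, hq, hqw⟩ := hw
    refine ⟨n + m, x ^ m • p + x ^ n • q,
      add_mem (Submodule.smul_mem _ _ hp) (Submodule.smul_mem _ _ hq), ?_⟩
    rw [map_add, hr, hr, hρ.map_pow_coord, hρ.map_pow_coord, hpz, hqw, smul_add, ← mul_smul,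
      ← mul_smul]
    congr 2 <;> ring

end Surj

end

end Fermat.PIC
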