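import Fermat.Agent.PIC.Chart.Div
import Fermat.Agent.PIC.Ops.Restrict
import Mathlib

/-!
# Twisting a datum down by an effective divisor

`sub` takes on each chart the multiples by the ideal of the divisor.
-/

set_option autoImplicit false

universe u

namespace Fermat.PIC

noncomputable section

variable {k : Type u} [Field k] (G : CurveCharts k) (B : Type u) [CommRing B] [Algebra k B]

/-- Restriction from `U0` to the overlap is a chart map. -/
lemma CurveCharts.isChartMap0 :
    IsChartMap (G.ρ0 B : G.R0 B →+* G.R01 B) (G.X0 B) (G.xUnit B) where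
  inj := (Datum.trivial G B).r0_inj
  map_coord := rfl
  surj := (Datum.trivial G B).r0_surj

/-- Restriction from `U1` to the overlap is a chart map. -/
lemma CurveCharts.isChartMap1 :
    IsChartMap (G.ρ1 B : G.R1 B →+* G.R01 B) (G.Y1 B) (G.xUnit B)⁻¹ where
  inj := (Datum.trivial G B).r1_inj
  map_coord := rfl
  surj := (Datum.trivial G B).r1_surj

variable {G B}

namespace Datum

/-- The twist of a datum down by a divisor. -/
def sub (D : Datum G B) (E : Div G B) : Datum G B :=
  haveI : Module.Invertible (G.R0 B) (smulTop E.I0 D.P0) := invertible_smul_top E.I0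
  haveI : Module.Invertible (G.R1 B) (smulTop E.I1 D.P1) := invertible_smul_top E.I1
  haveI : Module.Invertible (G.R01 B) (smulTop E.I01 D.P01) := invertible_smul_top E.I01
  { P0 := smulTop E.I0 D.P0
    P1 := smulTop E.I1 D.P1
    P01 := smulTop E.I01 D.P01
    r0 :=
      { toFun := smulTopMap (G.ρ0 B : G.R0 B →+* G.R01 B) D.r0.toAddMonoidHom D.r0_smul
          (J := E.I01) le_rfl
        map_add' := map_add _
        map_smul' := fun b p ↦ Subtype.ext (map_smul D.r0 b p.1) }
    r1 :=
      { toFun := smulTopMap (G.ρ1 B : G.R1 B →+* G.R01 B) D.r1.toAddMonoidHom D.r1_smul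
          E.I01_eq.ge
        map_add' := map_add _
        map_smul' := fun b p ↦ Subtype.ext (map_smul D.r1 b p.1) }
    r0_smul := fun a p ↦ Subtype.ext (D.r0_smul a p.1)
    r1_smul := fun a p ↦ Subtype.ext (D.r1_smul a p.1)
    r0_inj := fun _ _ h ↦ Subtype.ext (D.r0_inj (congrArg Subtype.val h))
    r1_inj := fun _ _ h ↦ Subtype.ext (D.r1_inj (congrArg Subtype.val h))
    r0_surj := fun z ↦ by
      obtain ⟨n, p, hp, h⟩ := exists_pow_smul_mem_smulTop (G.isChartMap0 B) D.r0.toAddMonoidHom
        D.r0_smul D.r0_surj (I := E.I0) (z := z.1) z.2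
      exact ⟨n, ⟨p, hp⟩, Subtype.ext h⟩
    r1_surj := fun z ↦ by
      obtain ⟨n, p, hp, h⟩ := exists_pow_smul_mem_smulTop (G.isChartMap1 B) D.r1.toAddMonoidHom
        D.r1_smul D.r1_surj (I := E.I1) (z := z.1)
        (show z.1 ∈ smulTop (E.I1.map (G.ρ1 B)) D.P01 from E.I01_eq ▸ z.2)
      exact ⟨n, ⟨p, hp⟩, Subtype.ext h⟩ }

/-- The twisted datum restricts from `U0` as the original. -/
lemma sub_r0_val (D : Datum G B) (E : Div G B) (p : (D.sub E).P0) :
    ((D.sub E).r0 p).1 = D.r0 p.1 := rfl

/-- The twisted datum restricts from `U1` as the original. -/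
lemma sub_r1_val (D : Datum G B) (E : Div G B) (p : (D.sub E).P1) :
    ((D.sub E).r1 p).1 = D.r1 p.1 := rfl

end Datum

end

end Fermat.PIC
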